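import Fermat.Agent.TWPrimes.Local.Basic
import Fermat.Agent.Lowering.P6.Tame
import Fermat.Agent.Frobenius.Exists

/-!
# The bound at a ramified prime with unipotent inertia

Inertia acts through a cyclic `p`-group, so a cocycle is determined by its values at a tame
generator and at a Frobenius element. The first lies in a plane and, if it vanishes, the second
commutes with a nilpotent matrix.
-/

set_option autoImplicit false
set_option linter.style.haveILetI false
set_option linter.unusedSectionVars false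

noncomputable section

open scoped Pointwise

namespace FLTAgent.TWPrimes.Local

open FLTAgent.PoitouTate

local notation "LL" => AlgebraicClosure ℚ
local notation "GG" => (AlgebraicClosure ℚ ≃ₐ[ℚ] AlgebraicClosure ℚ)
local notation "VS" => ValuationSubring (AlgebraicClosure ℚ)
local notation "Dec" => ValuationSubring.decompositionSubgroup ℚ
local notation "M2" => Matrix (Fin 2) (Fin 2)

variable {p : ℕ} [Fact p.Prime] {k : Type} [Field k] [Algebra (ZMod p) k]

/-! ### Nilpotent matrices -/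

/-- The trace zero matrices commuting with a nonzero nilpotent one are its multiples. -/
theorem exists_eq_smul_of_commute (h2 : (2 : k) ≠ 0) {N c : M2 k} (hN : N.trace = 0)
    (hN2 : N * N = 0) (hN0 : N ≠ 0) (hc : c.trace = 0) (h : c * N = N * c) :
    ∃ a : k, c = a • N := by
  rw [Matrix.trace_fin_two] at hN hc
  have hn : N 1 1 = -N 0 0 := eq_neg_of_add_eq_zero_right hN
  have hc' : c 1 1 = -c 0 0 := eq_neg_of_add_eq_zero_right hc
  have e00 := congrFun (congrFun h 0) 0
  have e01 := congrFun (congrFun h 0) 1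
  have e10 := congrFun (congrFun h 1) 0
  have s00 := congrFun (congrFun hN2 0) 0
  simp only [Matrix.mul_apply, Fin.sum_univ_two, hn, hc', Matrix.zero_apply] at e00 e01 e10 s00
  have htwo : ∀ {x : k}, 2 * x = 0 → x = 0 := fun hx => (mul_eq_zero.1 hx).resolve_left h2
  by_cases hy : N 0 1 = 0
  · by_cases hz : N 1 0 = 0
    · refine absurd ?_ hN0
      have hx : N 0 0 = 0 := mul_self_eq_zero.1 (by rw [hy, zero_mul, add_zero] at s00; exact s00)
      ext i j
      fin_cases i <;> fin_cases j <;> simp [hn, hx, hy, hz]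
    · refine ⟨c 1 0 / N 1 0, ?_⟩
      have q1 := htwo (x := c 1 0 * N 0 0 - N 1 0 * c 0 0) (by linear_combination e10)
      have q2 : c 0 1 * N 1 0 - N 0 1 * c 1 0 = 0 := by linear_combination e00
      ext i j
      fin_cases i <;> fin_cases j <;>
        simp only [Fin.zero_eta, Fin.mk_one, Matrix.smul_apply, smul_eq_mul, hn, hc'] <;>
        field_simp
      · linear_combination -q1
      · linear_combination q2
      · linear_combination q1
  · refine ⟨c 0 1 / N 0 1, ?_⟩
    have q1 := htwo (x := c 0 0 * N 0 1 - N 0 0 * c 0 1) (by linear_combination e01)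
    have q2 : c 0 1 * N 1 0 - N 0 1 * c 1 0 = 0 := by linear_combination e00
    ext i j
    fin_cases i <;> fin_cases j <;>
      simp only [Fin.zero_eta, Fin.mk_one, Matrix.smul_apply, smul_eq_mul, hn, hc'] <;>
      field_simp
    · linear_combination q1
    · linear_combination -q2
    · linear_combination -q1

theorem eq_zero_of_trace_mul (h2 : (2 : k) ≠ 0) {N : M2 k} (hN : N.trace = 0)
    (h : ∀ a : W k, (N * a.1).trace = 0) : N = 0 := by
  rw [Matrix.trace_fin_two] at hN
  have a := h ⟨!![0, 1; 0, 0], LinearMap.mem_ker.2 (by simp [Matrix.trace_fin_two])⟩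
  have b := h ⟨!![0, 0; 1, 0], LinearMap.mem_ker.2 (by simp [Matrix.trace_fin_two])⟩
  have e := h ⟨!![1, 0; 0, -1], LinearMap.mem_ker.2 (by simp [Matrix.trace_fin_two])⟩
  simp [Matrix.trace_fin_two, Matrix.mul_apply, Fin.sum_univ_two] at a b e
  have h00 : N 0 0 = 0 :=
    (mul_eq_zero.1 (show (2 : k) * N 0 0 = 0 by linear_combination e + hN)).resolve_left h2
  ext i j
  fin_cases i <;> fin_cases j <;> simp [a, b, h00]
  linear_combination hN - h00

theorem one_add_pow {N : M2 k} (hN : N * N = 0) (n : ℕ) : (1 + N) ^ n = 1 + (n : k) • N := by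
  induction n with
  | zero => simp
  | succ n ih =>
    rw [pow_succ, ih, Nat.cast_succ, add_smul, one_smul, mul_add, mul_one, add_mul, one_mul,
      smul_mul_assoc, hN, smul_zero, add_zero, add_assoc]

/-- The trace pairing with a matrix, on the trace zero ones. -/
def trMul (N : M2 k) : W k →ₗ[k] k :=
  (Matrix.traceLinearMap (Fin 2) k k) ∘ₗ LinearMap.mulLeft k N ∘ₗ Submodule.subtype _

theorem trMul_apply (N : M2 k) (a : W k) : trMul N a = (N * a.1).trace := rfl

variable (D : Datum p k) {V : VS}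

/-- The trace of a cochain against the representation, at one element. -/
def trAt (σ : ↥(Dec V)) : (↥(Dec V) → W k) →ₗ[ZMod p] k :=
  ((Matrix.traceLinearMap (Fin 2) k k) ∘ₗ LinearMap.mulRight k (rd D σ) ∘ₗ
    Submodule.subtype _).restrictScalars (ZMod p) ∘ₗ LinearMap.proj σ

theorem trAt_apply (σ : ↥(Dec V)) (c : ↥(Dec V) → W k) :
    trAt D σ c = ((c σ).1 * rd D σ).trace := rfl

/-- The cocycles with unipotent lift on inertia. -/
def unipSpace (V : VS) : Submodule (ZMod p) (↥(Dec V) → W k) :=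
  Z1 (ad D 0) (Dec V).subtype ⊓
    ⨅ σ ∈ {σ : ↥(Dec V) | (σ : GG) ∈ V.inertiaSubgroupIn ℚ}, LinearMap.ker (trAt D σ)

theorem mem_unipSpace {c : ↥(Dec V) → W k} :
    c ∈ unipSpace D V ↔ c ∈ Z1 (ad D 0) (Dec V).subtype ∧
      ∀ σ : ↥(Dec V), (σ : GG) ∈ V.inertiaSubgroupIn ℚ → ((c σ).1 * rd D σ).trace = 0 := by
  simp [unipSpace, Submodule.mem_iInf, trAt_apply]

theorem B1_le_unipSpace : B1 (ad D 0) (Dec V).subtype ≤ unipSpace D V := by
  intro c hc
  refine (mem_unipSpace D).2 ⟨B1_le_Z1 D hc, fun σ _ => ?_⟩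
  obtain ⟨a, rfl⟩ := hc
  rw [d0_apply, Subgroup.coe_subtype, Submodule.coe_sub, ad_zero_val, sub_mul, mul_assoc,
    rdi_mul_rd, mul_one, Matrix.trace_sub, Matrix.trace_mul_comm, sub_self]

section Gen

variable {D} {c : ↥(Dec V) → W k}

/-- The affine action of a cocycle, with the residual image. -/
def affHom (hc : c ∈ Z1 (ad D 0) (Dec V).subtype) :
    ↥(Dec V) →* Equiv.Perm (W k) × GL (Fin 2) k where
  toFun g :=
    ({ toFun := fun x => c g + ad D 0 (g : GG) x
       invFun := fun x => c g⁻¹ + ad D 0 ((g⁻¹ : ↥(Dec V)) : GG) x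
       left_inv := fun x => by
         show c g⁻¹ + ad D 0 _ (c g + ad D 0 (g : GG) x) = x
         rw [map_add, ← add_assoc, ← coc_mul hc, inv_mul_cancel, coc_one hc, zero_add,
           ← Module.End.mul_apply, ← map_mul, ← Subgroup.coe_mul, inv_mul_cancel,
           OneMemClass.coe_one, map_one, Module.End.one_apply]
       right_inv := fun x => by
         show c g + ad D 0 _ (c g⁻¹ + ad D 0 _ x) = x
         rw [map_add, ← add_assoc, ← coc_mul hc, mul_inv_cancel, coc_one hc, zero_add,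
           ← Module.End.mul_apply, ← map_mul, ← Subgroup.coe_mul, mul_inv_cancel,
           OneMemClass.coe_one, map_one, Module.End.one_apply] }, D.rb (g : GG))
  map_one' := Prod.ext (Equiv.ext fun x => by
    show c 1 + ad D 0 _ x = x
    rw [coc_one hc, zero_add, OneMemClass.coe_one, map_one, Module.End.one_apply]) (map_one _)
  map_mul' g h := Prod.ext (Equiv.ext fun x => by
    show c (g * h) + ad D 0 _ x = c g + ad D 0 _ (c h + ad D 0 _ x)
    rw [coc_mul hc, map_add, Subgroup.coe_mul, map_mul, Module.End.mul_apply, add_assoc])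
    (map_mul D.rb _ _)

theorem affHom_zero (hc : c ∈ Z1 (ad D 0) (Dec V).subtype) (g : ↥(Dec V)) :
    (affHom hc g).1 0 = c g := by
  show c g + ad D 0 _ 0 = c g
  rw [map_zero, add_zero]

theorem eq_of_affHom (hc : c ∈ Z1 (ad D 0) (Dec V).subtype) {g h : ↥(Dec V)}
    (e : affHom hc g = affHom hc h) : c g = c h ∧ D.rb (g : GG) = D.rb (h : GG) :=
  ⟨by rw [← affHom_zero hc g, ← affHom_zero hc h, e], congrArg Prod.snd e⟩

variable [Finite k] {q : ℕ} (T : Lowering.P6.TameGen p q V)
  (hI : ∀ g : ↥(Dec V), (g : GG) ∈ V.inertiaSubgroupIn ℚ →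
    ∃ a : ℕ, D.rb (g : GG) ^ p ^ a = 1)

include hI in
theorem affHom_gen (hc : c ∈ Z1 (ad D 0) (Dec V).subtype) :
    (∀ g : ↥(Dec V), (g : GG) ∈ V.inertiaSubgroupIn ℚ →
      affHom hc g ∈ Subgroup.zpowers (affHom hc T.σ)) ∧
    (∀ g, affHom hc g ∈ Subgroup.closure {affHom hc T.σ, affHom hc T.φ}) ∧
    affHom hc T.φ * affHom hc T.σ * (affHom hc T.φ)⁻¹ = affHom hc T.σ ^ q := by
  haveI := charP_local p k
  refine T.gen (affHom hc) ?_ fun g hg => ?_
  · obtain ⟨F, hF, h⟩ := hc.1
    obtain ⟨F', hF', h'⟩ := D.level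
    haveI := hF
    haveI := hF'
    refine ⟨F ⊔ F', inferInstance, fun g s hs => ?_⟩
    have h1 : D.rb (s : GG) = 1 := h' _ ((IntermediateField.mem_fixingSubgroup_iff F' _).1
      (IntermediateField.fixingSubgroup_antitone le_sup_right hs))
    refine Prod.ext (Equiv.ext fun x => ?_) ?_
    · show c (g * s) + ad D 0 _ x = c g + ad D 0 _ x
      rw [h g s (IntermediateField.fixingSubgroup_antitone le_sup_left hs), Subgroup.coe_mul,
        map_mul, Module.End.mul_apply, ad_zero_of_rb D h1]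
    · show D.rb ((g * s : ↥(Dec V)) : GG) = _
      rw [Subgroup.coe_mul, map_mul, h1, mul_one]
      rfl
  · obtain ⟨a, ha⟩ := hI g hg
    refine ⟨a + 1, ?_⟩
    have hg' : D.rb ((g ^ p ^ a : ↥(Dec V)) : GG) = 1 := by
      rw [SubmonoidClass.coe_pow, map_pow, ha]
    have h1 : D.rb ((g ^ p ^ (a + 1) : ↥(Dec V)) : GG) = 1 := by
      rw [pow_succ, pow_mul, SubmonoidClass.coe_pow, map_pow, hg', one_pow]
    have h2 : c (g ^ p ^ (a + 1)) = 0 := by
      rw [pow_succ, pow_mul, coc_pow_of_rb hc hg', ← Nat.cast_smul_eq_nsmul k, CharP.cast_eq_zero,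
        zero_smul]
    rw [← map_pow]
    refine Prod.ext (Equiv.ext fun x => ?_) h1
    show c _ + ad D 0 _ x = x
    rw [h2, zero_add, ad_zero_of_rb D h1]

include hI in
theorem eq_zero_of_gen (hc : c ∈ Z1 (ad D 0) (Dec V).subtype) (hσ : c T.σ = 0) (hφ : c T.φ = 0) :
    c = 0 := by
  obtain ⟨-, hcl, -⟩ := affHom_gen T hI hc
  funext g
  let H : Subgroup ↥(Dec V) :=
    { carrier := {x | c x = 0}
      one_mem' := coc_one hc
      mul_mem' := fun {a b} (ha : c a = 0) (hb : c b = 0) => by
        show c (a * b) = 0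
        rw [coc_mul hc, ha, hb, map_zero, add_zero]
      inv_mem' := fun {a} (ha : c a = 0) => by
        show c a⁻¹ = 0
        have h := coc_mul hc a⁻¹ a
        rw [inv_mul_cancel, coc_one hc, ha, map_zero, add_zero] at h
        exact h.symm }
  have hle : Subgroup.closure {T.σ, T.φ} ≤ H := (Subgroup.closure_le H).2 (by
    rintro x (rfl | rfl)
    exacts [hσ, hφ])
  have := hcl g
  rw [← Set.image_pair, ← MonoidHom.map_closure] at this
  obtain ⟨x, hx, hxg⟩ := this
  exact ((eq_of_affHom hc hxg).1.symm.trans (hle hx) : c g = 0)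

end Gen

end FLTAgent.TWPrimes.Local

namespace FLTAgent.TWPrimes

open FLTAgent.PoitouTate Local

local notation "GG" => (AlgebraicClosure ℚ ≃ₐ[ℚ] AlgebraicClosure ℚ)
local notation "Dec" => ValuationSubring.decompositionSubgroup ℚ
local notation "M2" => Matrix (Fin 2) (Fin 2)

theorem targetUnip : TargetUnip := by
  intro p _ k _ _ _ D q V hqp hV hram hu
  haveI := charP_local p k
  have h2 : (2 : k) ≠ 0 := two_ne_zero_coeff D.ne_two k
  obtain ⟨φ, hφ⟩ := Frobenius.exists_isFrobeniusAt V (q : ℕ) q.2 hV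
  obtain ⟨T, -⟩ := Lowering.P6.targetTameGen p q Fact.out q.2 hqp V hV φ hφ
  have hI : ∀ g : ↥(Dec V), (g : GG) ∈ V.inertiaSubgroupIn ℚ →
      ∃ a : ℕ, D.rb (g : GG) ^ p ^ a = 1 := fun g hg => ⟨1, Units.ext (by
    have hN := hu _ hg
    rw [pow_one, Units.val_pow_eq_pow_val, Units.val_one,
      show (D.rb (g : GG) : M2 k) = 1 + ((D.rb (g : GG) : M2 k) - 1) by abel,
      one_add_pow (by rw [← sq]; exact hN), CharP.cast_eq_zero, zero_smul, add_zero])⟩
  set N : M2 k := rd D T.σ - 1 with hN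
  have hr : rd D T.σ = 1 + N := by rw [hN]; abel
  have hN2 : N * N = 0 := by rw [← sq]; exact hu _ T.σ_mem
  have hNtr : N.trace = 0 :=
    (Matrix.isNilpotent_trace_of_isNilpotent ⟨2, hu _ T.σ_mem⟩).eq_zero
  have hN0 : N ≠ 0 := by
    intro h0
    obtain ⟨τ, hτ, hne⟩ := hram
    have h1 : D.rb (T.σ : GG) = 1 := Units.ext (sub_eq_zero.1 h0)
    obtain ⟨n, hn⟩ :=
      (affHom_gen T hI (zero_mem (Z1 (ad D 0) (Dec V).subtype))).1
        ⟨τ, Places.inertia_le_decomposition V hτ⟩ hτ
    have := congrArg Prod.snd hn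
    simp only [Prod.pow_snd] at this
    change D.rb (T.σ : GG) ^ n = D.rb τ at this
    exact hne (by rw [← this, h1, one_zpow])
  let Nw : W k := ⟨N, LinearMap.mem_ker.2 hNtr⟩
  -- the two values
  let U : Submodule k (W k) := LinearMap.ker (trMul N)
  let U' : Submodule k (W k) := k ∙ Nw
  let Φ : ↥(unipSpace D V) →ₗ[ZMod p] W k :=
    (LinearMap.proj T.σ : (↥(Dec V) → W k) →ₗ[ZMod p] W k) ∘ₗ Submodule.subtype _
  let Ψ : ↥(unipSpace D V) →ₗ[ZMod p] W k :=
    (LinearMap.proj T.φ : (↥(Dec V) → W k) →ₗ[ZMod p] W k) ∘ₗ Submodule.subtype _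
  have hinj : Function.Injective (Φ.prod Ψ) := by
    rw [← LinearMap.ker_eq_bot, LinearMap.ker_eq_bot']
    intro z hz
    exact Subtype.ext (eq_zero_of_gen T hI ((mem_unipSpace D).1 z.2).1 (congrArg Prod.fst hz)
      (congrArg Prod.snd hz))
  haveI : FiniteDimensional (ZMod p) ↥(unipSpace D V) := Module.Finite.of_injective _ hinj
  refine ⟨unipSpace D V, ⟨inf_le_left, B1_le_unipSpace D, inferInstance⟩, ?_,
    fun c hc hu' => (mem_unipSpace D).2 ⟨hc, hu'⟩⟩
  have hΦ : LinearMap.range Φ ≤ U.restrictScalars (ZMod p) := by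
    rintro _ ⟨z, rfl⟩
    have h := ((mem_unipSpace D).1 z.2).2 _ T.σ_mem
    rw [hr, mul_add, mul_one, Matrix.trace_add, trace_val, zero_add,
      Matrix.trace_mul_comm] at h
    exact h
  have hU : Module.finrank k ↥U ≤ 2 := by
    have hne : U ≠ ⊤ := fun he => hN0 (eq_zero_of_trace_mul h2 hNtr fun a => by
      have : a ∈ U := he ▸ Submodule.mem_top
      exact this)
    have := Submodule.finrank_lt hne
    rw [finrank_W] at this
    omega
  have hΨ : ∀ z : ↥(LinearMap.ker Φ), Ψ z.1 ∈ U'.restrictScalars (ZMod p) := by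
    intro z
    have hzc := ((mem_unipSpace D).1 z.1.2).1
    set c := z.1.1
    have h0 : c T.σ = 0 := z.2
    have hpow : ∀ n : ℕ, c (T.σ ^ n) = 0 := fun n => by
      induction n with
      | zero => rw [pow_zero]; exact coc_one hzc
      | succ n ih => rw [pow_succ, coc_mul hzc, ih, h0, map_zero, add_zero]
    obtain ⟨-, -, hrel⟩ := affHom_gen T hI hzc
    rw [← map_inv, ← map_mul, ← map_mul, ← map_pow] at hrel
    obtain ⟨e1, e2⟩ := eq_of_affHom hzc hrel
    set g : ↥(Dec V) := T.φ * T.σ * T.φ⁻¹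
    have e3 : c g = c T.φ - ad D 0 (g : GG) (c T.φ) := by
      have h1 := coc_mul hzc g T.φ
      rw [show g * T.φ = T.φ * T.σ by simp [g], coc_mul hzc, h0, map_zero, add_zero] at h1
      exact eq_sub_iff_add_eq.2 h1.symm
    rw [hpow] at e1
    rw [e1] at e3
    -- commutation
    set e := c T.φ with he
    have hu1 : (D.rb (g : GG) : M2 k) = 1 + ((q : ℕ) : k) • N := by
      rw [e2, SubmonoidClass.coe_pow, map_pow, Units.val_pow_eq_pow_val,
        show (D.rb (T.σ : GG) : M2 k) = 1 + N from hr, one_add_pow hN2]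
    have e4 : (D.rb (g : GG) : M2 k) * e.1 = e.1 * (D.rb (g : GG) : M2 k) := by
      have h := congrArg (fun a : W k => a.1 * (D.rb (g : GG) : M2 k))
        (sub_eq_zero.1 e3.symm : e = ad D 0 (g : GG) e)
      simp only [ad_zero_val, mul_assoc, Units.inv_mul, mul_one] at h
      exact h.symm
    rw [hu1, mul_add, mul_one, add_mul, one_mul, add_right_inj, mul_smul_comm,
      smul_mul_assoc] at e4
    have hq0 : ((q : ℕ) : k) ≠ 0 := fun h =>
      hqp ((Nat.prime_dvd_prime_iff_eq Fact.out q.2).1 ((CharP.cast_eq_zero_iff k p q).1 h)).symm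
    obtain ⟨a, ha⟩ := exists_eq_smul_of_commute h2 hNtr hN2 hN0 (trace_val e)
      (smul_right_injective (M2 k) hq0 e4).symm
    exact Submodule.mem_span_singleton.2 ⟨a, Subtype.ext ha.symm⟩
  rw [← LinearMap.finrank_range_add_finrank_ker Φ]
  have h1 : Module.finrank (ZMod p) ↥(LinearMap.range Φ) ≤ deg (p := p) k * 2 :=
    (Submodule.finrank_mono hΦ).trans (by
      rw [show Module.finrank (ZMod p) ↥(U.restrictScalars (ZMod p)) =
        Module.finrank (ZMod p) ↥U from rfl, finrank_scalars (k := k)]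
      exact Nat.mul_le_mul_left _ hU)
  have h3 : Module.finrank (ZMod p) ↥(LinearMap.ker Φ) ≤ deg (p := p) k * 1 := by
    refine (LinearMap.finrank_le_finrank_of_injective
      (f := (Ψ ∘ₗ (LinearMap.ker Φ).subtype).codRestrict (U'.restrictScalars (ZMod p)) hΨ)
      ?_).trans ?_
    · intro a b hab
      refine Subtype.ext (hinj (Prod.ext ((a.2 : Φ a.1 = 0).trans (b.2 : Φ b.1 = 0).symm) ?_))
      exact congrArg Subtype.val hab
    · rw [show Module.finrank (ZMod p) ↥(U'.restrictScalars (ZMod p)) =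
        Module.finrank (ZMod p) ↥U' from rfl, finrank_scalars (k := k),
        finrank_span_singleton (fun h => hN0 (congrArg Subtype.val h) : Nw ≠ 0)]
  omega

end FLTAgent.TWPrimes
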