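import Fermat.Agent.TWPrimes.Interface

/-!
# Local cocycles of the adjoint representation over a finite field: generalities
-/

set_option autoImplicit false
set_option linter.style.haveILetI false

noncomputable section

open scoped Pointwise

namespace FLTAgent.TWPrimes.Local

open FLTAgent.PoitouTate

local notation "LL" => AlgebraicClosure ℚ
local notation "GG" => (AlgebraicClosure ℚ ≃ₐ[ℚ] AlgebraicClosure ℚ)
local notation "VS" => ValuationSubring (AlgebraicClosure ℚ)
local notation "Dec" => ValuationSubring.decompositionSubgroup ℚ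
local notation "M2" => Matrix (Fin 2) (Fin 2)

variable {p : ℕ} [Fact p.Prime] {k : Type} [Field k] [Algebra (ZMod p) k]

theorem charP_local (p : ℕ) [Fact p.Prime] (k : Type) [Field k] [Algebra (ZMod p) k] : CharP k p :=
  charP_of_injective_algebraMap (algebraMap (ZMod p) k).injective p

theorem two_ne_zero_coeff (hp : p ≠ 2) (k : Type) [Field k] [Algebra (ZMod p) k] :
    (2 : k) ≠ 0 := by
  haveI := charP_local p k
  intro h
  have h' : ((2 : ℕ) : k) = 0 := by exact_mod_cast h
  rw [CharP.cast_eq_zero_iff k p, Nat.prime_dvd_prime_iff_eq Fact.out Nat.prime_two] at h'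
  exact hp h'

theorem finrank_scalars {M : Type} [AddCommGroup M] [Module k M] [Module (ZMod p) M]
    [IsScalarTower (ZMod p) k M] [FiniteDimensional k M] :
    Module.finrank (ZMod p) M = deg (p := p) k * Module.finrank k M :=
  (Module.finrank_mul_finrank (ZMod p) k M).symm

theorem finrank_W : Module.finrank k (W k) = 3 := by
  have h := LinearMap.finrank_range_add_finrank_ker (Matrix.traceLinearMap (Fin 2) k k)
  have hr : LinearMap.range (Matrix.traceLinearMap (Fin 2) k k) = ⊤ := by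
    rw [LinearMap.range_eq_top]
    intro a
    exact ⟨Matrix.single 0 0 a, by simp⟩
  rw [hr, finrank_top, Module.finrank_self, Module.finrank_matrix, Fintype.card_fin,
    Module.finrank_self] at h
  show Module.finrank k ↥(LinearMap.ker (Matrix.traceLinearMap (Fin 2) k k)) = 3
  omega

theorem trace_val (A : W k) : Matrix.trace A.1 = 0 := LinearMap.mem_ker.1 A.2

variable (D : Datum p k) {V : VS}

/-- The residual matrix at an element of a decomposition group. -/
abbrev rd (σ : ↥(Dec V)) : M2 k := (D.rb (σ : GG) : M2 k)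

/-- Its inverse. -/
abbrev rdi (σ : ↥(Dec V)) : M2 k := (((D.rb (σ : GG))⁻¹ : GL (Fin 2) k) : M2 k)

theorem rd_mul_rdi (σ : ↥(Dec V)) : rd D σ * rdi D σ = 1 := Units.mul_inv _

theorem rdi_mul_rd (σ : ↥(Dec V)) : rdi D σ * rd D σ = 1 := Units.inv_mul _

theorem rd_mul (σ τ : ↥(Dec V)) : rd D (σ * τ) = rd D σ * rd D τ := by
  simp [rd]

theorem rd_one : rd D (1 : ↥(Dec V)) = 1 := by simp [rd]

theorem ad_zero_val (σ : GG) (A : W k) :
    (ad D 0 σ A).1 = (D.rb σ : M2 k) * A.1 * (((D.rb σ)⁻¹ : GL (Fin 2) k) : M2 k) := by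
  show adM D 0 σ A.1 = _
  rw [adM, pow_zero, map_one, one_smul]

theorem ad_of_rb_eq_one (e : ℕ) {σ : GG} (h : D.rb σ = 1) (ho : om p σ ^ e = 1) (A : W k) :
    ad D e σ A = A := by
  refine Subtype.ext ?_
  show adM D e σ A.1 = _
  rw [adM, ho, map_one, one_smul, h]
  simp

theorem ad_zero_of_rb {σ : GG} (h : D.rb σ = 1) (A : W k) : ad D 0 σ A = A :=
  ad_of_rb_eq_one D 0 h (pow_zero _) A

theorem B1_le_Z1 : B1 (ad D 0) (Dec V).subtype ≤ Z1 (ad D 0) (Dec V).subtype := by
  rintro _ ⟨a, rfl⟩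
  refine ⟨?_, fun g h => ?_⟩
  · obtain ⟨F, hF, hlev⟩ := D.level
    refine ⟨F, hF, fun g s hs => ?_⟩
    rw [d0_apply, d0_apply, map_mul, map_mul, Module.End.mul_apply,
      ad_zero_of_rb D (hlev _ ((IntermediateField.mem_fixingSubgroup_iff F _).1 hs))]
  · rw [d0_apply, d0_apply, d0_apply, map_mul, map_mul, Module.End.mul_apply, map_sub]
    abel

variable {D} {c : ↥(Dec V) → W k}

theorem coc_mul (hc : c ∈ Z1 (ad D 0) (Dec V).subtype) (g h : ↥(Dec V)) :
    c (g * h) = c g + ad D 0 (g : GG) (c h) :=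
  hc.2 g h

theorem coc_val (hc : c ∈ Z1 (ad D 0) (Dec V).subtype) (g h : ↥(Dec V)) :
    (c (g * h)).1 = (c g).1 + rd D g * (c h).1 * rdi D g := by
  rw [coc_mul hc, Submodule.coe_add, ad_zero_val]

theorem coc_one (hc : c ∈ Z1 (ad D 0) (Dec V).subtype) : c 1 = 0 := by
  have h := coc_mul hc 1 1
  rw [mul_one, OneMemClass.coe_one, map_one, Module.End.one_apply, left_eq_add] at h
  exact h

theorem coc_inv (hc : c ∈ Z1 (ad D 0) (Dec V).subtype) (g : ↥(Dec V)) :
    ad D 0 (g : GG) (c g⁻¹) = -c g := by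
  have h := coc_mul hc g g⁻¹
  rw [mul_inv_cancel, coc_one hc] at h
  exact eq_neg_of_add_eq_zero_right h.symm

theorem coc_pow_of_rb (hc : c ∈ Z1 (ad D 0) (Dec V).subtype) {g : ↥(Dec V)}
    (hg : D.rb (g : GG) = 1) (n : ℕ) : c (g ^ n) = n • c g := by
  induction n with
  | zero => rw [pow_zero, coc_one hc, zero_nsmul]
  | succ n ih =>
    rw [pow_succ, coc_mul hc, ih, ad_zero_of_rb D (by rw [SubmonoidClass.coe_pow, map_pow, hg,
      one_pow]), succ_nsmul]

end FLTAgent.TWPrimes.Local
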