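import Fermat.Agent.TWPrimes.Local.FlatLine

/-!
# The count of flat lifts of a plane with a stable line, over a finite field
-/

set_option autoImplicit false
set_option linter.style.haveILetI false
set_option linter.unusedSectionVars false

noncomputable section

open scoped Pointwise Matrix
open IsLocalRing

namespace FLTAgent.TWPrimes.Local

open FLTAgent.FlatLocal (Dec LevC IsIne FlatI omega TameData exists_frob)

local notation "M2" => Matrix (Fin 2) (Fin 2)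

variable {P : ValuationSubring (AlgebraicClosure ℚ)} {p : ℕ} [Fact p.Prime] {k : Type} [Field k]
  [Algebra (ZMod p) k] (r : Dec P →* M2 k) (t : TameData P p) {ζ : AlgebraicClosure ℚ}
  (hP : P.LiesOverPrime p) (hζ : IsPrimitiveRoot ζ p)

/-- The upper triangular cocycles with unramified diagonal and unit classes in the corner. -/
def deepSub : Submodule (ZMod p) (Dec P → M2 k) where
  carrier := {c | c ∈ cocM r p ∧ (∀ σ, c σ 1 0 = 0) ∧ (∀ σ, IsIne P σ → c σ 0 0 = 0) ∧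
    ∀ l : k →ₗ[ZMod p] ZMod p, t.Lev ζ (fun σ => l (c σ 0 1)) 1}
  zero_mem' := ⟨zero_mem _, fun _ => rfl, fun _ _ => rfl, fun l =>
    t.lev_zero_fun 1 fun σ _ => by simp⟩
  add_mem' := fun {a b} ha hb => ⟨add_mem ha.1 hb.1, fun σ => by simp [ha.2.1 σ, hb.2.1 σ],
    fun σ hσ => by simp [ha.2.2.1 σ hσ, hb.2.2.1 σ hσ], fun l =>
      ((ha.2.2.2 l).add t hP hζ one_pos (hb.2.2.2 l)).congr t fun σ _ => by simp⟩
  smul_mem' := fun z a ha => ⟨Submodule.smul_mem _ z ha.1, fun σ => by simp [ha.2.1 σ],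
    fun σ hσ => by simp [ha.2.2.1 σ hσ], fun l =>
      ((ha.2.2.2 l).smul t hP hζ one_pos z).congr t fun σ _ => by simp⟩

variable [Finite k] {r} {t}

theorem deepSub_bound (h : IsUpOrd p ζ r) (hlev : LevC P r) (hp3 : 3 ≤ p) (he : t.e = p - 1) :
    FiniteDimensional (ZMod p) ↥(deepSub r t hP hζ) ∧
      Module.finrank (ZMod p) ↥(deepSub r t hP hζ) ≤ 3 * Module.finrank (ZMod p) k := by
  obtain ⟨φ, hφ⟩ := exists_frob hP
  set u : Dec P → k := fun σ => r σ 0 0 * r σ⁻¹ 1 1 with hu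
  obtain ⟨hfin, hcorner⟩ := cornerSub_bound t hP hζ (isTwist_uChar h hlev) hp3 he
  let Θ : ↥(deepSub r t hP hζ) →ₗ[ZMod p] k := entry p φ 0 0 ∘ₗ Submodule.subtype _
  let Cn : (Dec P → M2 k) →ₗ[ZMod p] (Dec P → k) := LinearMap.pi fun σ => entry p σ 0 1
  have hzero : ∀ c : ↥(LinearMap.ker Θ), ∀ σ, c.1.1 σ 0 0 = 0 := by
    rintro ⟨⟨c, hc, hl, hd, hlev'⟩, h0⟩ σ
    exact tw_eq_zero hP hφ (u := fun _ => (1 : k)) (ν := fun σ => c σ 0 0)
      ⟨hc.1.comp fun A : M2 k => A 0 0, fun a b => by rw [one_mul]; exact diag_mul h.low hc hl a b⟩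
      hd h0 σ
  have hmem : ∀ c : ↥(LinearMap.ker Θ), Cn c.1.1 ∈ cornerSub t hP hζ u := by
    intro c
    obtain ⟨hc, hl, hd, hlev'⟩ := c.1.2
    refine ⟨⟨hc.1.comp fun A : M2 k => A 0 1, fun a b => ?_⟩, hlev'⟩
    exact corner_mul h.low hc hl a (hzero c b)
  let E : ↥(LinearMap.ker Θ) →ₗ[ZMod p] ↥(cornerSub t hP hζ u) :=
    (Cn ∘ₗ (deepSub r t hP hζ).subtype ∘ₗ (LinearMap.ker Θ).subtype).codRestrict _ hmem
  have hE : Function.Injective E := by
    intro a b e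
    obtain ⟨ha, hla, -, -⟩ := a.1.2
    obtain ⟨hb, hlb, -, -⟩ := b.1.2
    refine Subtype.ext (Subtype.ext (funext fun σ => ?_))
    have h1 : a.1.1 σ 0 1 = b.1.1 σ 0 1 := congrFun (congrArg Subtype.val e) σ
    have h2 := ha.2.1 σ
    have h3 := hb.2.1 σ
    rw [Matrix.trace_fin_two, hzero a, zero_add] at h2
    rw [Matrix.trace_fin_two, hzero b, zero_add] at h3
    ext i j
    fin_cases i <;> fin_cases j <;> simp [h1, h2, h3, hla σ, hlb σ, hzero a σ, hzero b σ]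
  haveI := hfin
  haveI : FiniteDimensional (ZMod p) ↥(LinearMap.ker Θ) := Module.Finite.of_injective E hE
  haveI : FiniteDimensional (ZMod p) (↥(deepSub r t hP hζ) ⧸ LinearMap.ker Θ) :=
    Module.Finite.equiv Θ.quotKerEquivRange.symm
  haveI : FiniteDimensional (ZMod p) ↥(deepSub r t hP hζ) :=
    Module.Finite.of_submodule_quotient (LinearMap.ker Θ)
  refine ⟨inferInstance, ?_⟩
  have h1 := (LinearMap.finrank_le_finrank_of_injective hE).trans hcorner
  have h2 := Submodule.finrank_le (LinearMap.range Θ)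
  rw [← LinearMap.finrank_range_add_finrank_ker Θ]
  omega

include hP hζ in
/-- **The space of the line case.** -/
theorem exists_lineSpace (h : IsUpOrd p ζ r) (hlev : LevC P r) (hp3 : 3 ≤ p) (he : t.e = p - 1)
    {τ : Dec P} (hτ : IsIne P τ) (hθ : IsPrimitiveRoot (t.th τ) t.e)
    (hflat : FlatI P fun σ => (r σ).mulVecLin) :
    ∃ Lm : Submodule (ZMod p) (Dec P → M2 k), FiniteDimensional (ZMod p) ↥Lm ∧
      Module.finrank (ZMod p) ↥Lm ≤ 4 * deg (p := p) k ∧
      (∀ A : M2 k, A.trace = 0 → cobM r A ∈ Lm) ∧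
      ∀ c ∈ cocM r p, FlatI P (actM r c) → c ∈ Lm := by
  have hupper : ∀ a b : k, cobM r !![a, b; 0, -a] ∈ deepSub r t hP hζ := by
    intro a b
    have hc : cobM r !![a, b; 0, -a] ∈ cocM r p :=
      cobM_mem r hlev (by simp [Matrix.trace_fin_two])
    have hl : ∀ σ, cobM r !![a, b; 0, -a] σ 1 0 = 0 := fun σ => by
      rw [cobM_apply, Matrix.sub_apply, tri10 h.low]
      simp
    have hd : ∀ σ, cobM r !![a, b; 0, -a] σ 0 0 = 0 := fun σ => by
      rw [cobM_apply, Matrix.sub_apply]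
      exact sub_eq_zero.2 (tri00 h.low σ (by simp))
    exact ⟨hc, hl, fun σ _ => hd σ, lev_corner' h hP hp3 hζ t he hτ hθ hlev hc hl (fun σ _ => hd σ)
      (flat_cobM r hflat _)⟩
  obtain ⟨hfin, hbound⟩ := finrank_sup_low (r := r) (deepSub_bound hP hζ h hlev hp3 he)
  refine ⟨_, hfin, hbound.trans
    (show 3 * deg (p := p) k + deg (p := p) k ≤ 4 * deg (p := p) k by omega),
    fun A => cobM_mem_sup hupper, fun c hc hfl => ?_⟩
  obtain ⟨γ, hγ⟩ := exists_low' h hP hp3 hζ t he hτ hθ hlev hc hfl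
  set c' := c - cobM r !![0, 0; γ, 0] with hc'def
  have hc' : c' ∈ cocM r p := sub_mem hc (cobM_mem r hlev (by simp [Matrix.trace_fin_two]))
  have hfl' : FlatI P (actM r c') := flat_sub_cobM r hfl _
  have hd : ∀ σ, IsIne P σ → c' σ 0 0 = 0 := fun σ hσ =>
    diag_eq_zero' h hP hp3 hζ t he hτ hθ hc' hγ hfl' hσ
  have hdeep : c' ∈ deepSub r t hP hζ :=
    ⟨hc', hγ, hd, lev_corner' h hP hp3 hζ t he hτ hθ hlev hc' hγ hd hfl'⟩
  rw [← sub_add_cancel c (cobM r !![0, 0; γ, 0]), ← hc'def]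
  exact Submodule.add_mem_sup hdeep ⟨γ, lowCob_apply r γ⟩

end FLTAgent.TWPrimes.Local
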