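import Fermat.Agent.TWPrimes.Local.FlatSS
import Fermat.Agent.TWPrimes.Local.FlatLineBound

/-!
# The flat bound

Without a stable line the representation descends to the prime field and the bound over the prime
field applies; with one the cocycles are counted through unit classes.
-/

set_option autoImplicit false
set_option linter.style.haveILetI false
set_option linter.unusedSectionVars false

noncomputable section

open scoped Pointwise Matrix

namespace FLTAgent.TWPrimes.Local

open FLTAgent.PoitouTate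
open FLTAgent.FlatLocal (Dec LevC IsIne FlatI omega Mat2 Vec2 rk actV actWK IsCocycleK tangentBound)

local notation "M2" => Matrix (Fin 2) (Fin 2)

variable {P : ValuationSubring (AlgebraicClosure ℚ)} {p : ℕ} [Fact p.Prime] {k : Type} [Field k]
  [Algebra (ZMod p) k] [Finite k]

/-- The space of the case without line. -/
theorem exists_ssSpace (hP : P.LiesOverPrime p) (hp3 : 3 ≤ p) {ζ : AlgebraicClosure ℚ}
    (hζ : IsPrimitiveRoot ζ p) {r : Dec P →* M2 k} (hlev : LevC P r)
    (hdet : ∀ σ, (r σ).det = algebraMap (ZMod p) k (omega ζ σ))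
    (hflat : FlatI P fun σ => (r σ).mulVecLin)
    (hrat : ∀ σ, ∃ A : Mat2 p, r σ = A.map (algebraMap (ZMod p) k)) :
    ∃ Lm : Submodule (ZMod p) (Dec P → M2 k), FiniteDimensional (ZMod p) ↥Lm ∧
      Module.finrank (ZMod p) ↥Lm ≤ 4 * deg (p := p) k ∧
      (∀ A : M2 k, A.trace = 0 → cobM r A ∈ Lm) ∧
      ∀ c ∈ cocM r p, FlatI P (actM r c) → c ∈ Lm := by
  classical
  have hinj := (algebraMap (ZMod p) k).injective
  have hminj : Function.Injective fun A : Mat2 p => A.map (algebraMap (ZMod p) k) :=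
    Matrix.map_injective hinj
  choose A hA using hrat
  let r0 : Dec P →* Mat2 p :=
    { toFun := A
      map_one' := hminj (by
        show (A 1).map _ = (1 : Mat2 p).map (algebraMap (ZMod p) k)
        rw [← hA, map_one, Matrix.map_one _ (map_zero _) (map_one _)])
      map_mul' := fun a b => hminj (by
        show (A (a * b)).map _ = (A a * A b).map (algebraMap (ZMod p) k)
        rw [Matrix.map_mul, ← hA, ← hA, ← hA, map_mul]) }
  have hrk : ∀ σ, rk (k := k) r0 σ = r σ := fun σ => (hA σ).symm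
  have hlev0 : LevC P r0 := by
    obtain ⟨F, hF, hl⟩ := hlev
    refine ⟨F, hF, fun g s hs => hminj ?_⟩
    show (A (g * s)).map _ = (A g).map (algebraMap (ZMod p) k)
    rw [← hA, ← hA, hl g s hs]
  have hdet0 : ∀ σ, (r0 σ).det = omega ζ σ := fun σ => hinj (by
    rw [RingHom.map_det, RingHom.mapMatrix_apply, ← hdet, hA σ]
    rfl)
  have hflat0 : FlatI P (actV r0) := by
    refine hflat.restrict ((Algebra.linearMap (ZMod p) k).compLeft (Fin 2))
      (fun a b e => funext fun i => hinj (congrFun e i)) fun σ _ v => funext fun i => ?_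
    show algebraMap (ZMod p) k ((r0 σ *ᵥ v) i) = (r σ *ᵥ fun j => algebraMap (ZMod p) k (v j)) i
    rw [hA σ]
    simp [Matrix.mulVec, dotProduct, map_sum]
    rfl
  obtain ⟨s, hs, hs'⟩ := tangentBound hp3 P hP ζ hζ r0 hlev0 hdet0 hflat0 k
  set Sk := Submodule.span k (s : Set (Dec P → M2 k)) with hSk
  haveI : Module.Finite k ↥Sk := Module.Finite.span_of_finite _ s.finite_toSet
  haveI : Module.Finite (ZMod p) ↥(Sk.restrictScalars (ZMod p)) :=
    (Module.Finite.trans k ↥Sk : Module.Finite (ZMod p) ↥Sk)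
  have hmem : ∀ c ∈ cocM r p, FlatI P (actM r c) → c ∈ cocM r p ⊓ Sk.restrictScalars (ZMod p) := by
    intro c hc hf
    refine ⟨hc, hs' c ⟨hc.1, hc.2.1, fun σ τ => ?_⟩ ?_⟩
    · rw [hrk, hrk]; exact hc.2.2 σ τ
    · have e : actWK r0 c = actM r c := funext fun σ => by simp only [actWK, actM, hrk]
      rw [e]; exact hf
  refine ⟨cocM r p ⊓ Sk.restrictScalars (ZMod p), Submodule.finiteDimensional_inf_right _ _, ?_,
    fun B hB => hmem _ (cobM_mem r hlev hB) (flat_cobM r hflat B), hmem⟩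
  refine (Submodule.finrank_mono inf_le_right).trans ?_
  show Module.finrank (ZMod p) ↥Sk ≤ _
  rw [finrank_scalars (k := k), mul_comm 4]
  exact Nat.mul_le_mul_left _ ((finrank_span_finset_le_card s).trans hs)

end FLTAgent.TWPrimes.Local

namespace FLTAgent.TWPrimes

open FLTAgent.PoitouTate Local
open FLTAgent.FlatLocal (Dec LevC IsIne FlatI omega Mat2 TameData)

local notation "M2" => Matrix (Fin 2) (Fin 2)

theorem targetFlat : TargetFlat := by
  classical
  intro p _ k _ _ _ D V hP hflat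
  have hp3 : 3 ≤ p := by
    have := (Fact.out : p.Prime).two_le
    have := D.ne_two
    omega
  have hζ := zeta_spec p
  suffices H : ∃ (M N : M2 k) (hNM : N * M = 1) (Lm : Submodule (ZMod p) (Dec V → M2 k)),
      FiniteDimensional (ZMod p) ↥Lm ∧ Module.finrank (ZMod p) ↥Lm ≤ 4 * deg (p := p) k ∧
      (∀ A : M2 k, A.trace = 0 → cobM (matRep D V M N hNM) A ∈ Lm) ∧
      ∀ c ∈ cocM (matRep D V M N hNM) p, FlatI V (actM (matRep D V M N hNM) c) → c ∈ Lm by
    obtain ⟨M, N, hNM, Lm, hfin, hn, hcob, hmem⟩ := H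
    obtain ⟨L, hL, hLn, hLmem⟩ := exists_isLoc D V hNM Lm hfin hcob _ hn
    exact ⟨L, hL, hLn, fun c hc hf =>
      hLmem c hc (hmem _ (chg_mem D V hNM hc) (flat_chg D V hNM hf))⟩
  set r := matRep D V 1 1 (one_mul 1) with hr
  have hr' : ∀ σ, r σ = rd D σ := fun σ => by rw [hr, matRep_apply, one_mul, mul_one]
  have hlev : LevC V r := matRep_lev D V 1 1 (one_mul 1)
  by_cases hnl : NoLine r
  · obtain ⟨M, N, hNM, hrat⟩ := exists_descent hP hp3 hlev hnl
      (fun σ => by rw [hr']; exact D.split (σ : AlgebraicClosure ℚ ≃ₐ[ℚ] AlgebraicClosure ℚ))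
      (matRep_det D V 1 1 (one_mul 1))
    refine ⟨M, N, hNM, exists_ssSpace hP hp3 hζ (matRep_lev D V M N hNM)
      (matRep_det D V M N hNM) (flat_matRep D V hNM hflat) fun σ => ?_⟩
    obtain ⟨A, hA⟩ := hrat σ
    exact ⟨A, by rw [matRep_apply, ← hr']; exact hA⟩
  · rw [NoLine] at hnl
    push Not at hnl
    obtain ⟨v, hv, hline⟩ := hnl
    obtain ⟨M, N, hNM, hMv⟩ := exists_basis_change hv
    set r₁ := matRep D V M N hNM with hr₁
    have hlow : ∀ σ, r₁ σ 1 0 = 0 := fun σ => by
      obtain ⟨a, ha⟩ := hline σ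
      rw [hr'] at ha
      have e : r₁ σ *ᵥ ![1, 0] = a • ![1, 0] := by
        rw [hr₁, matRep_apply, ← Matrix.mulVec_mulVec, hMv, ← Matrix.mulVec_mulVec, ha,
          Matrix.mulVec_smul, ← hMv, Matrix.mulVec_mulVec, hNM, Matrix.one_mulVec]
      simpa [Matrix.mulVec, dotProduct, Fin.sum_univ_two] using congrFun e 1
    obtain ⟨t, ht⟩ := TameData.exists_data V (p := p) (p - 1) (by omega) dvd_rfl
      (fun h => absurd (Nat.le_of_dvd (by omega) h) (by omega))
    obtain ⟨τ, hτ, hθ⟩ := t.exists_tau hP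
    obtain ⟨M', N', hNM', hlow', hd0, hd1⟩ := exists_upOrd hP hp3 hζ t ht hτ hθ hlow
      (matRep_lev D V M N hNM) (matRep_det D V M N hNM) (flat_matRep D V hNM hflat)
    have hMN : M * N = 1 := mul_eq_one_comm.1 hNM
    have hNM₂ : (N' * N) * (M * M') = 1 := by
      rw [mul_assoc, ← mul_assoc N M, hNM, one_mul, hNM']
    have hcomp : ∀ σ, matRep D V (M * M') (N' * N) hNM₂ σ = N' * r₁ σ * M' := fun σ => by
      rw [hr₁, matRep_apply, matRep_apply]
      simp only [mul_assoc]
    have hord : IsUpOrd p (zeta p) (matRep D V (M * M') (N' * N) hNM₂) :=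
      ⟨fun σ => by rw [hcomp]; exact hlow' σ, fun σ hσ => by rw [hcomp]; exact hd0 σ hσ,
        fun σ hσ => by rw [hcomp]; exact hd1 σ hσ⟩
    exact ⟨M * M', N' * N, hNM₂, exists_lineSpace hP hζ hord (matRep_lev D V _ _ hNM₂) hp3 ht hτ hθ
      (flat_matRep D V hNM₂ hflat)⟩

end FLTAgent.TWPrimes
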