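import Fermat.Agent.TWPrimes.Local.Change

/-!
# The strictly ordinary bound

In a basis starting with the line the cocycles in question are, up to a coboundary, given by one
twisted additive function with cyclotomic twist.
-/

set_option autoImplicit false
set_option linter.style.haveILetI false
set_option linter.unusedSectionVars false

noncomputable section

open scoped Pointwise Matrix

namespace FLTAgent.TWPrimes.Local

open FLTAgent.PoitouTate
open FLTAgent.FlatLocal (Dec LevC IsIne omega)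

local notation "M2" => Matrix (Fin 2) (Fin 2)

variable {P : ValuationSubring (AlgebraicClosure ℚ)} {p : ℕ} [Fact p.Prime] {k : Type} [Field k]
  [Algebra (ZMod p) k]

/-- One matrix entry of a cochain at one element. -/
def entry (p : ℕ) [Fact p.Prime] [Algebra (ZMod p) k] (σ : Dec P) (i j : Fin 2) :
    (Dec P → M2 k) →ₗ[ZMod p] k where
  toFun c := c σ i j
  map_add' _ _ := rfl
  map_smul' _ _ := rfl

/-- Cocycles killing the first basis vector. -/
def lineCoc (p : ℕ) [Fact p.Prime] [Algebra (ZMod p) k] (r : Dec P →* M2 k) :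
    Submodule (ZMod p) (Dec P → M2 k) :=
  cocM r p ⊓ ⨅ σ, ⨅ i, LinearMap.ker (entry p σ i 0)

theorem mem_lineCoc {r : Dec P →* M2 k} {c : Dec P → M2 k} :
    c ∈ lineCoc p r ↔ c ∈ cocM r p ∧ ∀ σ i, c σ i 0 = 0 := by
  simp [lineCoc, Submodule.mem_iInf, entry]

theorem lineCoc_bound {r : Dec P →* M2 k} (hlow : ∀ σ, r σ 1 0 = 0) {u : Dec P → k}
    (hu : ∀ σ, r σ 0 0 * r σ⁻¹ 1 1 = u σ) {n : ℕ}
    (h : FiniteDimensional (ZMod p) ↥(twSpace p u) ∧ Module.finrank (ZMod p) ↥(twSpace p u) ≤ n) :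
    FiniteDimensional (ZMod p) ↥(lineCoc p r) ∧
      Module.finrank (ZMod p) ↥(lineCoc p r) ≤ n := by
  let E0 : (Dec P → M2 k) →ₗ[ZMod p] (Dec P → k) := LinearMap.pi fun σ => entry p σ 0 1
  let E : ↥(lineCoc p r) →ₗ[ZMod p] ↥(twSpace p u) :=
    (E0 ∘ₗ (lineCoc p r).subtype).codRestrict (twSpace p u) fun c => by
      obtain ⟨hc, h0⟩ := mem_lineCoc.1 c.2
      refine ⟨hc.1.comp fun A => A 0 1, fun σ τ => ?_⟩
      show c.1 (σ * τ) 0 1 = c.1 σ 0 1 + u σ * c.1 τ 0 1
      rw [corner_mul hlow hc (fun σ => h0 σ 1) σ (h0 τ 0), hu]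
  have hE : Function.Injective E := by
    intro a b e
    obtain ⟨ha, ha0⟩ := mem_lineCoc.1 a.2
    obtain ⟨hb, hb0⟩ := mem_lineCoc.1 b.2
    refine Subtype.ext (funext fun σ => ?_)
    have h1 : a.1 σ 0 1 = b.1 σ 0 1 := congrFun (congrArg Subtype.val e) σ
    have h2 := ha.2.1 σ
    have h3 := hb.2.1 σ
    rw [Matrix.trace_fin_two, ha0, zero_add] at h2
    rw [Matrix.trace_fin_two, hb0, zero_add] at h3
    ext i j
    fin_cases i <;> fin_cases j <;> simp [h1, h2, h3, ha0, hb0]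
  haveI := h.1
  exact ⟨Module.Finite.of_injective E hE,
    (LinearMap.finrank_le_finrank_of_injective hE).trans h.2⟩

/-- The coboundaries of the matrices with only a lower corner. -/
def lowCob (p : ℕ) [Fact p.Prime] [Algebra (ZMod p) k] (r : Dec P →* M2 k) :
    k →ₗ[ZMod p] (Dec P → M2 k) :=
  ((cobM r).comp (LinearMap.toSpanSingleton k (M2 k) !![0, 0; 1, 0])).restrictScalars (ZMod p)

theorem lowCob_apply (r : Dec P →* M2 k) (a : k) :
    lowCob p r a = cobM r !![0, 0; a, 0] := by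
  show cobM r (a • !![(0 : k), 0; 1, 0]) = _
  congr 1
  ext i j
  fin_cases i <;> fin_cases j <;> simp

theorem split_trace_zero {A : M2 k} (hA : A.trace = 0) :
    A = !![A 0 0, A 0 1; 0, -A 0 0] + !![0, 0; A 1 0, 0] := by
  rw [Matrix.trace_fin_two] at hA
  ext i j
  fin_cases i <;> fin_cases j <;> simp
  linear_combination hA

/-- A space containing the upper coboundaries, enlarged by the lower ones, contains all. -/
theorem cobM_mem_sup {r : Dec P →* M2 k} {L₀ : Submodule (ZMod p) (Dec P → M2 k)}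
    (h : ∀ a b : k, cobM r !![a, b; 0, -a] ∈ L₀) {A : M2 k} (hA : A.trace = 0) :
    cobM r A ∈ L₀ ⊔ LinearMap.range (lowCob p r) := by
  rw [split_trace_zero hA, map_add]
  exact Submodule.add_mem_sup (h _ _) ⟨A 1 0, lowCob_apply r _⟩

theorem finrank_sup_low [Finite k] {r : Dec P →* M2 k} {L₀ : Submodule (ZMod p) (Dec P → M2 k)}
    {n : ℕ} (h : FiniteDimensional (ZMod p) ↥L₀ ∧ Module.finrank (ZMod p) ↥L₀ ≤ n) :
    FiniteDimensional (ZMod p) ↥(L₀ ⊔ LinearMap.range (lowCob p r)) ∧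
      Module.finrank (ZMod p) ↥(L₀ ⊔ LinearMap.range (lowCob p r)) ≤ n + deg (p := p) k := by
  haveI := h.1
  refine ⟨inferInstance, (Submodule.finrank_add_le_finrank_add_finrank _ _).trans ?_⟩
  exact add_le_add h.2 (LinearMap.finrank_range_le _)

end FLTAgent.TWPrimes.Local

namespace FLTAgent.TWPrimes

open FLTAgent.PoitouTate Local
open FLTAgent.FlatLocal (Dec LevC IsIne omega TameData)

local notation "GG" => (AlgebraicClosure ℚ ≃ₐ[ℚ] AlgebraicClosure ℚ)
local notation "M2" => Matrix (Fin 2) (Fin 2)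

theorem targetOrd : TargetOrd := by
  classical
  intro p _ k _ _ _ D V hP v₀ x hv₀ hx
  have hp3 : 3 ≤ p := by
    have := (Fact.out : p.Prime).two_le
    have := D.ne_two
    omega
  have hζ := zeta_spec p
  obtain ⟨t, ht⟩ := TameData.exists_data V (p := p) (p - 1) (by omega) dvd_rfl
    (fun h => absurd (Nat.le_of_dvd (by omega) h) (by omega))
  obtain ⟨M, N, hNM, hMv⟩ := exists_basis_change hv₀
  have hMN : M * N = 1 := mul_eq_one_comm.1 hNM
  set r := matRep D V M N hNM with hr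
  have hNv : N *ᵥ v₀ = ![1, 0] := by
    rw [← hMv, Matrix.mulVec_mulVec, hNM, Matrix.one_mulVec]
  have hcol : ∀ σ, r σ *ᵥ ![1, 0] = x σ • ![1, 0] := fun σ => by
    rw [hr, matRep_apply, ← Matrix.mulVec_mulVec, hMv, ← Matrix.mulVec_mulVec, (hx σ).1,
      Matrix.mulVec_smul, hNv]
  have h00 : ∀ σ, r σ 0 0 = x σ := fun σ => by
    simpa [Matrix.mulVec, dotProduct, Fin.sum_univ_two] using congrFun (hcol σ) 0
  have hlow : ∀ σ, r σ 1 0 = 0 := fun σ => by
    simpa [Matrix.mulVec, dotProduct, Fin.sum_univ_two] using congrFun (hcol σ) 1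
  have hom : ∀ σ : Dec V, algebraMap (ZMod p) k (omega (zeta p) σ) ≠ 0 := fun σ e =>
    FlatLocal.omega_ne_zero hζ σ ((map_eq_zero_iff _ (algebraMap (ZMod p) k).injective).1 e)
  have hx2 : ∀ σ, x σ ^ 2 = algebraMap (ZMod p) k (omega (zeta p) σ) ^ 2 := fun σ => by
    rw [(hx σ).2, FlatLocal.omega_eq_natCast hζ σ (apply_zeta _), ZMod.natCast_zmod_val]
  set u : Dec V → k := fun σ => algebraMap (ZMod p) k (omega (zeta p) σ) with hudef
  have hu' : ∀ σ, r σ 0 0 * r σ⁻¹ 1 1 = u σ := by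
    intro σ
    have h1 := matRep_det D V M N hNM σ
    rw [← hr, Matrix.det_fin_two, hlow, mul_zero, sub_zero, h00] at h1
    have h2 := r11_inv hlow σ
    show r σ 0 0 * r σ⁻¹ 1 1 = algebraMap (ZMod p) k (omega (zeta p) σ)
    rw [h00]
    refine mul_left_cancel₀ (hom σ) ?_
    linear_combination -(x σ * r σ⁻¹ 1 1) * h1 + x σ ^ 2 * h2 + hx2 σ
  have hu : IsTwist p (zeta p) u :=
    { lev := by
        obtain ⟨F, hF, hl⟩ := (matRep_lev D V M N hNM : LevC V r)
        refine ⟨F, hF, fun g s hs => ?_⟩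
        rw [hudef]
        show algebraMap (ZMod p) k _ = algebraMap (ZMod p) k _
        rw [← matRep_det D V M N hNM, ← matRep_det D V M N hNM, ← hr, hl g s hs]
      one := by simp [hudef, FlatLocal.omega_one hζ]
      mul := fun σ τ => by simp [hudef, FlatLocal.omega_mul hζ]
      ine := fun σ _ => rfl }
  obtain ⟨hfin, hbound⟩ := finrank_sup_low (r := r)
    (lineCoc_bound hlow hu' (twSpace_bound t hP hζ hu hp3 ht))
  have hupper : ∀ a b : k, cobM r !![a, b; 0, -a] ∈ lineCoc p r := by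
    intro a b
    refine mem_lineCoc.2 ⟨cobM_mem r (matRep_lev D V M N hNM) (by simp [Matrix.trace_fin_two]),
      fun σ i => ?_⟩
    rw [cobM_apply, Matrix.sub_apply]
    fin_cases i
    · show (r σ * !![a, b; 0, -a] * r σ⁻¹) 0 0 - _ = 0
      exact sub_eq_zero.2 (tri00 hlow σ (by simp))
    · show (r σ * !![a, b; 0, -a] * r σ⁻¹) 1 0 - _ = 0
      rw [tri10 hlow]
      simp
  obtain ⟨L, hL, hLn, hmem⟩ := exists_isLoc D V hNM _ hfin (fun A => cobM_mem_sup hupper)
    (4 * deg (p := p) k) (hbound.trans (show 3 * deg (p := p) k + deg (p := p) k ≤ 4 * deg (p := p) k by omega))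
  refine ⟨L, hL, hLn, fun c hc ⟨v₁, hv₁⟩ => hmem c hc ?_⟩
  set c' := chg (p := p) V M N c with hc'def
  set w := N *ᵥ v₁ with hw
  set A : M2 k := !![-w 0, 0; -w 1, w 0] with hA
  have hAtr : A.trace = 0 := by simp [hA, Matrix.trace_fin_two]
  have hc' : c' ∈ cocM r p := chg_mem D V hNM hc
  have hkey : c' - cobM r A ∈ lineCoc p r := by
    refine mem_lineCoc.2 ⟨sub_mem hc' (cobM_mem r (matRep_lev D V M N hNM) hAtr), fun σ i => ?_⟩
    have hAe : A *ᵥ ![1, 0] = -w := by
      funext j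
      fin_cases j <;> simp [hA, Matrix.mulVec, dotProduct, Fin.sum_univ_two]
    have hwrel : c' σ *ᵥ (x σ • ![1, 0]) + r σ *ᵥ w = x σ • w := by
      have h1 := congrArg (N *ᵥ ·) (hv₁ σ)
      simp only [Matrix.mulVec_add, Matrix.mulVec_smul] at h1
      rw [hw, hc'def, chg_apply, hr, matRep_apply, Matrix.mulVec_smul, ← Matrix.mulVec_mulVec,
        hMv, ← Matrix.mulVec_mulVec _ N (c σ).1, Matrix.mulVec_mulVec _ (N * rd D σ * M) N,
        mul_assoc (N * rd D σ), hMN, mul_one, ← Matrix.mulVec_mulVec _ N (rd D σ)]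
      rw [show Matrix.mulVec (c σ).1 (rd D σ *ᵥ v₀) = x σ • ((c σ).1 *ᵥ v₀) by
        rw [(hx σ).1, Matrix.mulVec_smul], Matrix.mulVec_smul] at h1
      exact h1
    have hzero : (c' - cobM r A) σ *ᵥ (x σ • ![1, 0]) = 0 := by
      have h2 : r σ⁻¹ *ᵥ (x σ • ![1, 0]) = ![1, 0] := by
        rw [← hcol, Matrix.mulVec_mulVec, Local.r_inv_mul, Matrix.one_mulVec]
      rw [Pi.sub_apply, cobM_apply, Matrix.sub_mulVec, Matrix.sub_mulVec,
        ← Matrix.mulVec_mulVec, ← Matrix.mulVec_mulVec, h2, hAe, Matrix.mulVec_neg,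
        Matrix.mulVec_smul A, hAe]
      rw [eq_sub_of_add_eq hwrel, smul_neg]
      abel
    have hx0 : x σ ≠ 0 := fun e => by
      have h3 := hx2 σ
      rw [e, zero_pow (by norm_num : 2 ≠ 0)] at h3
      exact hom σ ((pow_eq_zero_iff (by norm_num : 2 ≠ 0)).1 h3.symm)
    rw [Matrix.mulVec_smul, smul_eq_zero] at hzero
    simpa [Matrix.mulVec, dotProduct, Fin.sum_univ_two] using
      congrFun (hzero.resolve_left hx0) i
  have hcob := cobM_mem_sup hupper hAtr
  rw [← sub_add_cancel c' (cobM r A)]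
  exact add_mem (Submodule.mem_sup_left hkey) hcob

end FLTAgent.TWPrimes
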