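import Fermat.Agent.TWPrimes.Local.FrobFixed
import Fermat.Agent.FlatLocal.OrdResidual
import Fermat.Agent.FlatLocal.LeadLinear

/-!
# Twisted additive functions with values in a finite field

A character `u` of the decomposition group which is cyclotomic on inertia defines twisted additive
functions with values in `k`. They form a space of dimension at most three times the degree, and
those with unit classes one of dimension at most twice the degree.
-/

set_option autoImplicit false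
set_option linter.style.haveILetI false
set_option linter.unusedSectionVars false

noncomputable section

open scoped Pointwise
open IsLocalRing

namespace FLTAgent.TWPrimes.Local

open FLTAgent.FlatLocal

local notation "QQb" => AlgebraicClosure ℚ

variable {P : ValuationSubring (AlgebraicClosure ℚ)} {p : ℕ} [Fact p.Prime] {k : Type} [Field k]
  [Algebra (ZMod p) k]

/-- A character which is cyclotomic on inertia. -/
structure IsTwist (p : ℕ) [Fact p.Prime] [Algebra (ZMod p) k] (ζ : AlgebraicClosure ℚ)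
    (u : Dec P → k) : Prop where
  lev : LevC P u
  one : u 1 = 1
  mul : ∀ σ τ, u (σ * τ) = u σ * u τ
  ine : ∀ σ, IsIne P σ → u σ = algebraMap (ZMod p) k (omega ζ σ)

theorem IsTwist.ne_zero {ζ : QQb} {u : Dec P → k} (h : IsTwist p ζ u) (σ : Dec P) : u σ ≠ 0 :=
  left_ne_zero_of_mul_eq_one (b := u σ⁻¹) (by rw [← h.mul, mul_inv_cancel, h.one])

/-- Twisted additive functions of a number field level. -/
def twSpace (p : ℕ) [Fact p.Prime] [Algebra (ZMod p) k] (u : Dec P → k) :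
    Submodule (ZMod p) (Dec P → k) where
  carrier := {ν | LevC P ν ∧ ∀ σ τ, ν (σ * τ) = ν σ + u σ * ν τ}
  zero_mem' := ⟨LevC.of_const 0, fun _ _ => by simp⟩
  add_mem' := by
    rintro a b ⟨ha, ha'⟩ ⟨hb, hb'⟩
    refine ⟨(ha.inter hb).comp fun x => x.1 + x.2, fun σ τ => ?_⟩
    simp only [Pi.add_apply, ha', hb']
    ring
  smul_mem' := by
    rintro r a ⟨ha, ha'⟩
    refine ⟨ha.comp fun x => r • x, fun σ τ => ?_⟩
    simp only [Pi.smul_apply, ha', smul_add, mul_smul_comm]

theorem twSpace_one {u : Dec P → k} {ν : Dec P → k} (h : ν ∈ twSpace p u) (h1 : u 1 = 1) :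
    ν 1 = 0 := by
  have e := h.2 1 1
  rw [mul_one, h1, one_mul, left_eq_add] at e
  exact e

/-- A twisted additive function trivial on inertia and at Frobenius vanishes. -/
theorem tw_eq_zero (hP : P.LiesOverPrime p) {φ : Dec P}
    (hφ : ∀ z : ResidueField P, φ • z = z ^ p) {u ν : Dec P → k} (hν : ν ∈ twSpace p u)
    (hI : ∀ σ, IsIne P σ → ν σ = 0) (h0 : ν φ = 0) (σ : Dec P) : ν σ = 0 := by
  obtain ⟨⟨F, hF, hl⟩, hmul⟩ := hν
  haveI := hF
  have hpow : ∀ i : ℕ, ν (φ ^ i) = 0 := by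
    intro i
    induction i with
    | zero => rw [pow_zero]; exact hI 1 isIne_one
    | succ i ih => rw [pow_succ, hmul, ih, h0, mul_zero, add_zero]
  obtain ⟨i, ι, s, hι, hs, rfl⟩ := exists_decomp hP hφ F σ
  rw [hl _ _ hs, hmul, hpow, hI ι hι, mul_zero, add_zero]

/-- A twisted additive function trivial on inertia vanishes at Frobenius if the twist is ramified
there. -/
theorem tw_frob {φ τ : Dec P} {u ν : Dec P → k} (hν : ν ∈ twSpace p u)
    (hI : ∀ σ, IsIne P σ → ν σ = 0) (hτ : IsIne P τ) (hu : u (φ * τ * φ⁻¹) ≠ 1) : ν φ = 0 := by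
  have e1 := hν.2 φ τ
  rw [hI τ hτ, mul_zero, add_zero, show φ * τ = φ * τ * φ⁻¹ * φ by group, hν.2,
    hI _ (hτ.conj φ), zero_add] at e1
  by_contra hne
  exact hu ((mul_eq_right₀ hne).1 e1)

section Tame

variable (t : TameData P p) {ζ : QQb} (hP : P.LiesOverPrime p) (hζ : IsPrimitiveRoot ζ p)
  {u : Dec P → k} (hu : IsTwist p ζ u)

include hP hζ hu

theorem u_G {g : Dec P} (hg : g ∈ t.G) : u g = 1 := by
  rw [hu.ine g hg.1, omega_eq_one_of_fix hζ (t.fix_zeta hP hg hζ), map_one]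

theorem isHomG_comp {ν : Dec P → k} (hν : ν ∈ twSpace p u) (l : k →ₗ[ZMod p] ZMod p) :
    t.IsHomG fun σ => l (ν σ) :=
  ⟨hν.1.comp l, fun σ hσ σ' _ => by rw [hν.2, u_G t hP hζ hu hσ, one_mul, map_add]⟩

theorem conj_comp {ν : Dec P → k} (hν : ν ∈ twSpace p u) (l : k →ₗ[ZMod p] ZMod p) (g : Dec P)
    {σ : Dec P} (hσ : σ ∈ t.G) :
    Mazur.expChar p ζ (g : AlgebraicClosure ℚ ≃ₐ[ℚ] AlgebraicClosure ℚ) * l (ν (g⁻¹ * σ * g)) =
      l (algebraMap (ZMod p) k (omega ζ g) / u g * ν σ) := by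
  have e1 := hν.2 g (g⁻¹ * σ * g)
  rw [show g * (g⁻¹ * σ * g) = σ * g by group, hν.2, u_G t hP hζ hu hσ, one_mul, add_comm] at e1
  rw [add_left_cancel e1, ← mul_assoc (_ / _), div_mul_cancel₀ _ (hu.ne_zero g), ← Algebra.smul_def,
    map_smul, smul_eq_mul]
  rfl

omit hu in
/-- The twisted functions all of whose coordinates are unit classes. -/
def cornerSub (u : Dec P → k) : Submodule (ZMod p) (Dec P → k) where
  carrier := {ν | ν ∈ twSpace p u ∧ ∀ l : k →ₗ[ZMod p] ZMod p, t.Lev ζ (fun σ => l (ν σ)) 1}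
  zero_mem' := ⟨zero_mem _, fun l => t.lev_zero_fun 1 fun σ _ => by simp⟩
  add_mem' := fun {a b} ha hb => ⟨add_mem ha.1 hb.1, fun l =>
    ((ha.2 l).add t hP hζ one_pos (hb.2 l)).congr t fun σ _ => by simp⟩
  smul_mem' := fun r a ha => ⟨Submodule.smul_mem _ r ha.1, fun l =>
    ((ha.2 l).smul t hP hζ one_pos r).congr t fun σ _ => by simp⟩

variable (hp3 : 3 ≤ p) (he : t.e = p - 1)

include hp3 he

theorem pred_lt' : p - 1 < p * t.e1 := by
  rw [t.e1_eq_one he, mul_one]
  omega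

/-- Below order `p - 1` the weight forbids leading terms. -/
theorem lev_pred_comp {ν : Dec P → k} (hν : ν ∈ cornerSub t hP hζ u) {m : ℕ} (hm : 1 ≤ m)
    (hmp : m ≤ p - 1) (l : k →ₗ[ZMod p] ZMod p) : t.Lev ζ (fun σ => l (ν σ)) m := by
  obtain ⟨τ, hτ, hθ⟩ := t.exists_tau hP
  induction m, hm using Nat.le_induction with
  | base => exact hν.2 l
  | succ m hm ih =>
    have hlev := ih (by omega)
    have hnd : ¬ p ∣ m := fun hd => absurd (Nat.le_of_dvd hm hd) (by omega)
    have hmT : m < p * t.e1 := lt_trans (by omega) (pred_lt' t hP hζ hu hp3 he)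
    refine t.lev_succ_of_lead hP hζ hnd hmT hlev ?_
    have hfun : ∀ σ ∈ t.G,
        Mazur.expChar p ζ (τ : AlgebraicClosure ℚ ≃ₐ[ℚ] AlgebraicClosure ℚ) *
          l (ν (τ⁻¹ * σ * τ)) = l (ν σ) := by
      intro σ hσ
      rw [conj_comp t hP hζ hu hν.1 l τ hσ, ← hu.ine τ hτ, div_self (hu.ne_zero τ), one_mul]
    have e := t.lead_congr hP hζ hnd hmT (hlev.conj t hP hζ τ) hfun
    rw [t.lead_conj hP hζ hnd hmT hlev τ, hτ.smul_eq] at e
    by_contra hne
    exact t.th_tau_pow_ne_one hp3 he hθ hm (by omega) ((mul_eq_left₀ hne).1 e)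

variable [Finite k]

/-- **The bound for unit classes.** -/
theorem cornerSub_bound :
    FiniteDimensional (ZMod p) ↥(cornerSub t hP hζ u) ∧
      Module.finrank (ZMod p) ↥(cornerSub t hP hζ u) ≤ 2 * Module.finrank (ZMod p) k := by
  classical
  haveI := FrobTrace.isAlgClosed_residueField P
  obtain ⟨τ, hτ, hθ⟩ := t.exists_tau hP
  obtain ⟨φ, hφ⟩ := exists_frob hP
  letI : Algebra (ZMod p) (ResidueField P) := (kp hP).toAlgebra
  have hp1 : (1 : ℕ) ≤ p - 1 := by omega
  have hnd : ¬ p ∣ p - 1 := fun hd => absurd (Nat.le_of_dvd (by omega) hd) (by omega)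
  have hmT := pred_lt' t hP hζ hu hp3 he
  let b := Module.finBasis (ZMod p) k
  have hlev : ∀ ν : ↥(cornerSub t hP hζ u), ∀ l : k →ₗ[ZMod p] ZMod p,
      t.Lev ζ (fun σ => l (ν.1 σ)) (p - 1) :=
    fun ν => lev_pred_comp t hP hζ hu hp3 he ν.2 hp1 le_rfl
  let X : ↥(cornerSub t hP hζ u) →ₗ[ZMod p] (Fin (Module.finrank (ZMod p) k) → ResidueField P) :=
    { toFun := fun ν i => t.lead ζ (fun σ => b.coord i (ν.1 σ)) (p - 1)
      map_add' := fun ν ν' => funext fun i => by
        refine Eq.trans ?_ (t.lead_add hP hζ hnd hmT (hlev ν _) (hlev ν' _))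
        exact t.lead_congr hP hζ hnd hmT (hlev (ν + ν') _) fun σ _ => map_add _ _ _
      map_smul' := fun r ν => funext fun i => by
        refine Eq.trans ?_ (t.lead_smul hP hζ hnd hmT (hlev ν _) r)
        exact t.lead_congr hP hζ hnd hmT (hlev (r • ν) _) fun σ _ => map_smul _ _ _ }
  -- Frobenius
  set κ : k := algebraMap (ZMod p) k (omega ζ φ) / u φ with hκ
  let M : Matrix (Fin (Module.finrank (ZMod p) k)) (Fin (Module.finrank (ZMod p) k))
      (ResidueField P) := fun j i => kp hP (b.coord j (κ * b i)) / t.th φ ^ (p - 1)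
  have hfrob : ∀ x ∈ LinearMap.range X, ∀ j, x j ^ p = (Matrix.mulVec M x) j := by
    rintro _ ⟨ν, rfl⟩ j
    have h1 := t.lead_congr hP hζ hnd hmT ((hlev ν (b.coord j)).conj t hP hζ φ)
      (ν' := fun σ => ∑ i, b.coord j (κ * b i) * b.coord i (ν.1 σ)) fun σ hσ => by
        show Mazur.expChar p ζ _ * b.coord j (ν.1 (φ⁻¹ * σ * φ)) = _
        rw [conj_comp t hP hζ hu ν.2.1 _ φ hσ, ← hκ]
        conv_lhs => rw [← b.sum_repr (ν.1 σ)]
        simp only [Finset.mul_sum, map_sum, mul_smul_comm, map_smul, smul_eq_mul,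
          Module.Basis.coord_apply]
        exact Finset.sum_congr rfl fun i _ => mul_comm _ _
    rw [t.lead_conj hP hζ hnd hmT (hlev ν _) φ, hφ,
      (t.lead_lincomb hP hζ hnd hmT Finset.univ (fun i => b.coord j (κ * b i))
        (fun i σ => b.coord i (ν.1 σ)) fun i _ => hlev ν (b.coord i)).2] at h1
    show X ν j ^ p = ∑ i, M j i * X ν i
    simp only [M, div_mul_eq_mul_div, ← Finset.sum_div]
    rw [eq_div_iff (pow_ne_zero _ (t.th_ne_zero φ))]
    exact h1
  obtain ⟨hfin, hrange⟩ := frob_fixed_bound M (LinearMap.range X) hfrob fun z hz =>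
    (exists_kp_eq hP hz).imp fun i hi => hi
  -- the kernel
  let U : k →ₗ[ZMod p] (Dec P → k) :=
    LinearMap.pi fun σ => LinearMap.mulRight (ZMod p) (u σ - 1)
  have hker : ∀ ν : ↥(LinearMap.ker X), (ν.1.1 : Dec P → k) ∈ LinearMap.range U := by
    rintro ⟨⟨ν, hν⟩, h0⟩
    have hG : ∀ g ∈ t.G, ν g = 0 := fun g hg => b.forall_coord_eq_zero_iff.1 fun i => by
      refine t.eq_zero_of_lev_top (ν := fun σ => b.coord i (ν σ)) hP hζ ?_ hg
      have h1 := t.lev_succ_of_lead hP hζ hnd hmT (hlev ⟨ν, hν⟩ (b.coord i)) (congrFun h0 i)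
      exact h1.anti t hP hζ (by rw [t.e1_eq_one he]; omega)
    have hu1 : u τ - 1 ≠ 0 := sub_ne_zero.2 fun e => by
      rw [hu.ine τ hτ, map_eq_one_iff _ (algebraMap (ZMod p) k).injective] at e
      exact t.omega_tau_ne_one hP hp3 hζ he hτ hθ e
    set K := ν τ / (u τ - 1) with hK
    refine ⟨K, funext fun σ => ?_⟩
    set ν' : Dec P → k := fun σ => ν σ - K * (u σ - 1) with hν'
    have hν'mem : ν' ∈ twSpace p u := ⟨(hν.1.1.inter hu.lev).comp fun x => x.1 - K * (x.2 - 1),
      fun a c => by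
        simp only [hν']
        rw [hν.1.2, hu.mul]
        ring⟩
    have hν'G : ∀ g ∈ t.G, ν' g = 0 := fun g hg => by
      simp only [hν']
      rw [hG g hg, u_G t hP hζ hu hg, sub_self, mul_zero, sub_zero]
    have hν'τ : ν' τ = 0 := by
      simp only [hν', hK]
      rw [div_mul_cancel₀ _ hu1, sub_self]
    have hI : ∀ σ, IsIne P σ → ν' σ = 0 := by
      intro σ hσ
      obtain ⟨i, g, hg, rfl⟩ := t.ine_decomp hP hτ hθ hσ
      rw [hν'mem.2, hν'G g hg, mul_zero, add_zero]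
      clear hσ
      induction i with
      | zero => rw [pow_zero]; exact twSpace_one hν'mem hu.one
      | succ i ih => rw [pow_succ, hν'mem.2, ih, hν'τ, mul_zero, add_zero]
    have hz := tw_eq_zero hP hφ hν'mem hI (tw_frob hν'mem hI hτ (by
      have h1 := omega_conj (p := p) hζ φ⁻¹ τ
      rw [inv_inv] at h1
      rw [hu.ine _ (hτ.conj φ), h1, ← hu.ine τ hτ]
      exact sub_ne_zero.1 hu1)) σ
    exact (sub_eq_zero.1 hz).symm
  let E : ↥(LinearMap.ker X) →ₗ[ZMod p] ↥(LinearMap.range U) :=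
    ((Submodule.subtype _) ∘ₗ (LinearMap.ker X).subtype).codRestrict _ hker
  have hE : Function.Injective E := fun a c h =>
    Subtype.ext (Subtype.ext (congrArg (fun z : ↥(LinearMap.range U) => z.1) h))
  haveI := hfin
  haveI : FiniteDimensional (ZMod p) ↥(LinearMap.ker X) := Module.Finite.of_injective E hE
  haveI : FiniteDimensional (ZMod p) (↥(cornerSub t hP hζ u) ⧸ LinearMap.ker X) :=
    Module.Finite.equiv X.quotKerEquivRange.symm
  haveI : FiniteDimensional (ZMod p) ↥(cornerSub t hP hζ u) :=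
    Module.Finite.of_submodule_quotient (LinearMap.ker X)
  refine ⟨inferInstance, ?_⟩
  have h2 := (LinearMap.finrank_le_finrank_of_injective hE).trans (LinearMap.finrank_range_le U)
  rw [← LinearMap.finrank_range_add_finrank_ker X]
  omega

/-- **The bound for all twisted additive functions.** -/
theorem twSpace_bound :
    FiniteDimensional (ZMod p) ↥(twSpace p u) ∧
      Module.finrank (ZMod p) ↥(twSpace p u) ≤ 3 * Module.finrank (ZMod p) k := by
  classical
  obtain ⟨hfin, hcorner⟩ := cornerSub_bound t hP hζ hu hp3 he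
  let b := Module.finBasis (ZMod p) k
  -- exponents of the valuations of Kummer generators
  let Ex : (Dec P → ZMod p) → ℤ → Prop := fun μ i =>
    ∃ β, t.Gen ζ μ β ∧ P.valuation (β ^ p) = t.vπ ^ i
  have hex : ∀ (ν : ↥(twSpace p u)) (l : k →ₗ[ZMod p] ZMod p), ∃ i, Ex (fun σ => l (ν.1 σ)) i := by
    intro ν l
    obtain ⟨β, hβ⟩ := t.exists_gen hP hζ (isHomG_comp t hP hζ hu ν.2 l)
    obtain ⟨i, hi⟩ := t.exists_zpow hP (pow_ne_zero p hβ.1) fun σ hσ => hβ.pow_fixed t hP hζ hσ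
    exact ⟨i, β, hβ, hi⟩
  choose ex hex' using hex
  have huniq : ∀ (ν : ↥(twSpace p u)) (l : k →ₗ[ZMod p] ZMod p) (i : ℤ),
      Ex (fun σ => l (ν.1 σ)) i → (i : ZMod p) = (ex ν l : ZMod p) := by
    rintro ν l i ⟨β, hβ, hi⟩
    obtain ⟨β', hβ', hi'⟩ := hex' ν l
    obtain ⟨j, hj⟩ := t.exists_zpow hP (div_ne_zero hβ'.1 hβ.1) fun σ hσ =>
      hβ.ratio_fixed t hP hζ hβ' hσ
    have h1 : t.vπ ^ (ex ν l) = t.vπ ^ (i + (p : ℤ) * j) := by
      rw [zpow_add₀ t.vπ_ne_zero, ← hi, ← hi', mul_comm (p : ℤ), zpow_mul, zpow_natCast, ← hj,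
        ← map_pow, ← map_mul, div_pow, mul_div_cancel₀ _ (pow_ne_zero _ hβ.1)]
    rw [t.zpow_inj hP h1]
    push_cast
    rw [ZMod.natCast_self, zero_mul, add_zero]
  let v0 : ↥(twSpace p u) →+ (Fin (Module.finrank (ZMod p) k) → ZMod p) :=
    AddMonoidHom.mk' (fun ν i => (ex ν (b.coord i) : ZMod p)) fun ν ν' => funext fun i => by
      show (ex (ν + ν') (b.coord i) : ZMod p) =
        (ex ν (b.coord i) : ZMod p) + (ex ν' (b.coord i) : ZMod p)
      obtain ⟨β, hβ, hv⟩ := hex' ν (b.coord i)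
      obtain ⟨β', hβ', hv'⟩ := hex' ν' (b.coord i)
      rw [← Int.cast_add]
      refine (huniq (ν + ν') _ _ ⟨β * β', (hβ.mul t hP hζ hβ').congr t fun σ _ =>
        (map_add _ _ _).symm, ?_⟩).symm
      rw [mul_pow, map_mul, hv, hv', zpow_add₀ t.vπ_ne_zero]
  let v := v0.toZModLinearMap p
  have hv : ∀ ν : ↥(LinearMap.ker v), (ν.1.1 : Dec P → k) ∈ cornerSub t hP hζ u := by
    rintro ⟨⟨ν, hν⟩, h0⟩
    refine ⟨hν, fun l => ?_⟩
    have h1 : ∀ i, t.Lev ζ (fun σ => b.coord i (ν σ)) 1 := by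
      intro i
      rcases t.lev_one_or hP hζ (isHomG_comp t hP hζ hu hν (b.coord i)) with ⟨β, j, hβ, hj, hd⟩ | h
      · refine absurd ?_ hd
        rw [← ZMod.intCast_zmod_eq_zero_iff_dvd, huniq ⟨ν, hν⟩ (b.coord i) j ⟨β, hβ, hj⟩]
        exact congrFun h0 i
      · exact h
    have hnd : ¬ p ∣ 1 := fun hd => absurd (Nat.le_of_dvd one_pos hd) (by omega)
    refine (t.lead_lincomb hP hζ hnd (by rw [t.e1_eq_one he]; omega) Finset.univ (fun i => l (b i))
      (fun i σ => b.coord i (ν σ)) fun i _ => h1 i).1.congr t fun σ _ => ?_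
    show ∑ i, l (b i) * b.coord i (ν σ) = l (ν σ)
    conv_rhs => rw [← b.sum_repr (ν σ)]
    simp only [map_sum, map_smul, smul_eq_mul, Module.Basis.coord_apply]
    exact Finset.sum_congr rfl fun i _ => mul_comm _ _
  let E : ↥(LinearMap.ker v) →ₗ[ZMod p] ↥(cornerSub t hP hζ u) :=
    ((Submodule.subtype _) ∘ₗ (LinearMap.ker v).subtype).codRestrict _ hv
  have hE : Function.Injective E := fun a c h =>
    Subtype.ext (Subtype.ext (congrArg (fun z : ↥(cornerSub t hP hζ u) => z.1) h))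
  haveI := hfin
  haveI : FiniteDimensional (ZMod p) ↥(LinearMap.ker v) := Module.Finite.of_injective E hE
  haveI : FiniteDimensional (ZMod p) (↥(twSpace p u) ⧸ LinearMap.ker v) :=
    Module.Finite.equiv v.quotKerEquivRange.symm
  haveI : FiniteDimensional (ZMod p) ↥(twSpace p u) :=
    Module.Finite.of_submodule_quotient (LinearMap.ker v)
  refine ⟨inferInstance, ?_⟩
  have h1 := LinearMap.finrank_le_finrank_of_injective hE
  have h2 := Submodule.finrank_le (LinearMap.range v)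
  rw [Module.finrank_fintype_fun_eq_card, Fintype.card_fin] at h2
  rw [← LinearMap.finrank_range_add_finrank_ker v]
  omega

end Tame

end FLTAgent.TWPrimes.Local
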