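import Fermat.Agent.TWPrimes.Local.Basic
import Fermat.Agent.TWPrimes.Local.Twisted
import Fermat.Agent.PoitouTate.Inv

/-!
# Local cocycles in a chosen basis
-/

set_option autoImplicit false
set_option linter.style.haveILetI false
set_option linter.unusedSectionVars false

noncomputable section

open scoped Pointwise Matrix

namespace FLTAgent.TWPrimes.Local

open FLTAgent.PoitouTate
open FLTAgent.FlatLocal (Dec LevC IsIne FlatI omega)

local notation "LL" => AlgebraicClosure ℚ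
local notation "GG" => (AlgebraicClosure ℚ ≃ₐ[ℚ] AlgebraicClosure ℚ)
local notation "M2" => Matrix (Fin 2) (Fin 2)

variable {P : ValuationSubring (AlgebraicClosure ℚ)} {p : ℕ} [Fact p.Prime] {k : Type} [Field k]
  [Algebra (ZMod p) k]

/-! ### Cocycles with values in matrices -/

section Coc

variable (r : Dec P →* M2 k)

theorem r_mul_inv (σ : Dec P) : r σ * r σ⁻¹ = 1 := by rw [← map_mul, mul_inv_cancel, map_one]

theorem r_inv_mul (σ : Dec P) : r σ⁻¹ * r σ = 1 := by rw [← map_mul, inv_mul_cancel, map_one]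

/-- Trace zero cocycles with values in matrices. -/
def cocM (p : ℕ) [Fact p.Prime] [Algebra (ZMod p) k] : Submodule (ZMod p) (Dec P → M2 k) where
  carrier := {c | LevC P c ∧ (∀ σ, (c σ).trace = 0) ∧
    ∀ σ τ, c (σ * τ) = c σ + r σ * c τ * r σ⁻¹}
  zero_mem' := ⟨LevC.of_const 0, fun _ => by simp, fun _ _ => by simp⟩
  add_mem' := by
    rintro a b ⟨ha, ha1, ha2⟩ ⟨hb, hb1, hb2⟩
    refine ⟨(ha.inter hb).comp fun x => x.1 + x.2, fun σ => by simp [ha1 σ, hb1 σ], fun σ τ => ?_⟩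
    simp only [Pi.add_apply, ha2, hb2, mul_add, add_mul]
    abel
  smul_mem' := by
    rintro z a ⟨ha, ha1, ha2⟩
    refine ⟨ha.comp fun x => z • x, fun σ => by simp [ha1 σ], fun σ τ => ?_⟩
    simp only [Pi.smul_apply, ha2, smul_add, mul_smul_comm, smul_mul_assoc]

/-- The coboundary of a matrix. -/
def cobM : M2 k →ₗ[k] (Dec P → M2 k) :=
  LinearMap.pi fun σ =>
    LinearMap.mulRight k (r σ⁻¹) ∘ₗ LinearMap.mulLeft k (r σ) - LinearMap.id

theorem cobM_apply (A : M2 k) (σ : Dec P) : cobM r A σ = r σ * A * r σ⁻¹ - A := rfl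

theorem cobM_mem (hr : LevC P r) {A : M2 k} (hA : A.trace = 0) :
    cobM r A ∈ cocM r p := by
  refine ⟨?_, fun σ => ?_, fun σ τ => ?_⟩
  · obtain ⟨F, hF, hl⟩ := hr
    refine ⟨F, hF, fun g s hs => ?_⟩
    have h1 : r s = 1 := by
      have := hl 1 s hs
      rwa [one_mul, map_one] at this
    have h2 : r s⁻¹ = 1 := by
      have := r_inv_mul r s
      rwa [h1, mul_one] at this
    simp [cobM_apply, h1, h2]
  · rw [cobM_apply, Matrix.trace_sub, Matrix.trace_mul_cycle, r_inv_mul, one_mul, sub_self]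
  · simp only [cobM_apply, map_mul, mul_inv_rev, mul_sub, sub_mul, mul_assoc]
    abel

/-- The lift of a representation to dual numbers given by a cochain. -/
def actM (c : Dec P → M2 k) (σ : Dec P) : Module.End k ((Fin 2 → k) × (Fin 2 → k)) :=
  LinearMap.prod ((r σ).mulVecLin ∘ₗ LinearMap.fst _ _ _)
    ((r σ).mulVecLin ∘ₗ LinearMap.snd _ _ _ + (c σ * r σ).mulVecLin ∘ₗ LinearMap.fst _ _ _)

theorem actM_apply (c : Dec P → M2 k) (σ : Dec P) (x v : Fin 2 → k) :
    actM r c σ (x, v) = (r σ *ᵥ x, r σ *ᵥ v + (c σ * r σ) *ᵥ x) := rfl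

/-- Adding a coboundary does not destroy flatness of the lift. -/
theorem flat_sub_cobM {c : Dec P → M2 k} (hflat : FlatI P (actM r c)) (A : M2 k) :
    FlatI P (actM r (c - cobM r A)) := by
  let Φ : (Fin 2 → k) × (Fin 2 → k) →ₗ[k] (Fin 2 → k) × (Fin 2 → k) :=
    (LinearMap.fst _ _ _).prod (LinearMap.snd _ _ _ - A.mulVecLin ∘ₗ LinearMap.fst _ _ _)
  have hΦ : ∀ x v, Φ (x, v) = (x, v - A *ᵥ x) := fun x v => rfl
  refine hflat.restrict Φ (fun a b e => ?_) fun σ _ y => ?_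
  · obtain ⟨a1, a2⟩ := a
    obtain ⟨b1, b2⟩ := b
    rw [hΦ, hΦ, Prod.mk.injEq] at e
    obtain ⟨rfl, e2⟩ := e
    rw [sub_left_inj] at e2
    rw [e2]
  · obtain ⟨x, v⟩ := y
    rw [hΦ, actM_apply, actM_apply, hΦ]
    refine Prod.ext rfl ?_
    rw [Pi.sub_apply, cobM_apply, sub_mul, sub_mul, mul_assoc (r σ * A), r_inv_mul, mul_one,
      Matrix.sub_mulVec, Matrix.sub_mulVec, Matrix.mulVec_sub, Matrix.mulVec_mulVec,
      Matrix.mulVec_mulVec]
    funext i
    simp only [Pi.add_apply, Pi.sub_apply]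
    ring

/-- Coboundaries have flat lifts if the representation is flat. -/
theorem flat_cobM [Finite k] (hflat : FlatI P fun σ => (r σ).mulVecLin) (A : M2 k) :
    FlatI P (actM r (cobM r A)) := by
  have h0 : FlatI P (actM r 0) := by
    refine (FlatI.prod hflat hflat
      (fun σ => (r σ).mulVecLin.prodMap (r σ).mulVecLin) fun σ _ x => rfl).congr
        (LinearEquiv.refl k ((Fin 2 → k) × (Fin 2 → k))) fun σ _ x => ?_
    obtain ⟨x, v⟩ := x
    simp [actM_apply]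
  have h := flat_sub_cobM r h0 (-A)
  rwa [map_neg, sub_neg_eq_add, zero_add] at h

/-! ### Triangular representations -/

section Tri

variable {r} (hlow : ∀ σ, r σ 1 0 = 0)

include hlow

theorem r00_mul (σ τ : Dec P) : r (σ * τ) 0 0 = r σ 0 0 * r τ 0 0 := by
  rw [map_mul]; simp [Matrix.mul_apply, Fin.sum_univ_two, hlow τ]

theorem r11_mul (σ τ : Dec P) : r (σ * τ) 1 1 = r σ 1 1 * r τ 1 1 := by
  rw [map_mul]; simp [Matrix.mul_apply, Fin.sum_univ_two, hlow σ]

theorem r00_inv (σ : Dec P) : r σ 0 0 * r σ⁻¹ 0 0 = 1 := by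
  rw [← r00_mul hlow, mul_inv_cancel, map_one, Matrix.one_apply_eq]

theorem r11_inv (σ : Dec P) : r σ 1 1 * r σ⁻¹ 1 1 = 1 := by
  rw [← r11_mul hlow, mul_inv_cancel, map_one, Matrix.one_apply_eq]

theorem tri10 (σ : Dec P) (A : M2 k) :
    (r σ * A * r σ⁻¹) 1 0 = r σ 1 1 * r σ⁻¹ 0 0 * A 1 0 := by
  simp [Matrix.mul_apply, Fin.sum_univ_two, hlow σ, hlow σ⁻¹]; ring

theorem tri00 (σ : Dec P) {A : M2 k} (hA : A 1 0 = 0) : (r σ * A * r σ⁻¹) 0 0 = A 0 0 := by
  have h := r00_inv hlow σ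
  simp [Matrix.mul_apply, Fin.sum_univ_two, hlow σ⁻¹, hA]
  linear_combination A 0 0 * h

theorem tri01 (σ : Dec P) {A : M2 k} (hA : A 1 0 = 0) (h0 : A 0 0 = 0) (h1 : A 1 1 = 0) :
    (r σ * A * r σ⁻¹) 0 1 = r σ 0 0 * r σ⁻¹ 1 1 * A 0 1 := by
  simp [Matrix.mul_apply, Fin.sum_univ_two, hA, h0, h1]; ring

theorem low_mul {c : Dec P → M2 k} (hc : c ∈ cocM r p) (σ τ : Dec P) :
    c (σ * τ) 1 0 = c σ 1 0 + r σ 1 1 * r σ⁻¹ 0 0 * c τ 1 0 := by
  rw [hc.2.2, Matrix.add_apply, tri10 hlow]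

theorem diag_mul {c : Dec P → M2 k} (hc : c ∈ cocM r p) (hl : ∀ σ, c σ 1 0 = 0) (σ τ : Dec P) :
    c (σ * τ) 0 0 = c σ 0 0 + c τ 0 0 := by
  rw [hc.2.2, Matrix.add_apply, tri00 hlow σ (hl τ)]

theorem corner_mul {c : Dec P → M2 k} (hc : c ∈ cocM r p) (hl : ∀ σ, c σ 1 0 = 0) (σ : Dec P)
    {τ : Dec P} (hd : c τ 0 0 = 0) :
    c (σ * τ) 0 1 = c σ 0 1 + r σ 0 0 * r σ⁻¹ 1 1 * c τ 0 1 := by
  have h11 : c τ 1 1 = 0 := by
    have h := hc.2.1 τ
    rwa [Matrix.trace_fin_two, hd, zero_add] at h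
  rw [hc.2.2, Matrix.add_apply, tri01 hlow σ (hl τ) hd h11]

theorem uChar_mul (σ τ : Dec P) :
    r (σ * τ) 0 0 * r (σ * τ)⁻¹ 1 1 = r σ 0 0 * r σ⁻¹ 1 1 * (r τ 0 0 * r τ⁻¹ 1 1) := by
  rw [r00_mul hlow, mul_inv_rev, r11_mul hlow]; ring

end Tri

end Coc

/-! ### Change of basis -/

variable (D : Datum p k) (V : ValuationSubring (AlgebraicClosure ℚ))

/-- The residual representation on a decomposition group in a new basis. -/
def matRep (M N : M2 k) (hNM : N * M = 1) : Dec V →* M2 k where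
  toFun σ := N * rd D σ * M
  map_one' := by rw [rd_one, mul_one, hNM]
  map_mul' σ τ := by
    have hMN : M * N = 1 := mul_eq_one_comm.1 hNM
    rw [rd_mul]
    simp only [mul_assoc]
    rw [← mul_assoc M N, hMN, one_mul]

theorem matRep_apply (M N : M2 k) (hNM : N * M = 1) (σ : Dec V) :
    matRep D V M N hNM σ = N * rd D σ * M := rfl

theorem matRep_lev (M N : M2 k) (hNM : N * M = 1) : LevC V (matRep D V M N hNM) := by
  obtain ⟨F, hF, hl⟩ := D.level
  refine ⟨F, hF, fun g s hs => ?_⟩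
  simp only [matRep_apply]
  rw [rd_mul, show rd D s = 1 by
    rw [rd, hl _ ((IntermediateField.mem_fixingSubgroup_iff F _).1 hs), Units.val_one], mul_one]

theorem matRep_det (M N : M2 k) (hNM : N * M = 1) (σ : Dec V) :
    (matRep D V M N hNM σ).det = algebraMap (ZMod p) k (omega (zeta p) σ) := by
  rw [matRep_apply, Matrix.det_mul, Matrix.det_mul, D.det_cyclo, mul_right_comm, ← Matrix.det_mul,
    hNM, Matrix.det_one, one_mul, FlatLocal.omega_eq_natCast (zeta_spec p) σ (apply_zeta _),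
    ZMod.natCast_zmod_val]

/-- A cochain in the new basis. -/
def chg (M N : M2 k) : (Dec V → W k) →ₗ[ZMod p] (Dec V → M2 k) :=
  LinearMap.pi fun σ => (LinearMap.mulRight k M ∘ₗ LinearMap.mulLeft k N ∘ₗ
    Submodule.subtype _).restrictScalars (ZMod p) ∘ₗ LinearMap.proj σ

theorem chg_apply (M N : M2 k) (c : Dec V → W k) (σ : Dec V) :
    chg (p := p) V M N c σ = N * (c σ).1 * M := rfl

variable {M N : M2 k} (hNM : N * M = 1)

include hNM

theorem chg_mem {c : Dec V → W k} (hc : c ∈ Z1 (ad D 0) (Dec V).subtype) :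
    chg (p := p) V M N c ∈ cocM (matRep D V M N hNM) p := by
  have hMN : M * N = 1 := mul_eq_one_comm.1 hNM
  refine ⟨?_, fun σ => ?_, fun σ τ => ?_⟩
  · obtain ⟨F, hF, hl⟩ := hc.1
    exact ⟨F, hF, fun g s hs => by rw [chg_apply, chg_apply, hl g s hs]⟩
  · rw [chg_apply, Matrix.trace_mul_cycle, hMN, one_mul, trace_val]
  · have e : rdi D σ = rd D σ⁻¹ := by
      show _ = (D.rb ((σ⁻¹ : Dec V) : GG) : M2 k)
      rw [Subgroup.coe_inv, map_inv]
    rw [chg_apply, chg_apply, chg_apply, coc_val hc, matRep_apply, matRep_apply, e, mul_add,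
      add_mul]
    simp only [mul_assoc]
    rw [← mul_assoc M N, hMN, one_mul, ← mul_assoc M N, hMN, one_mul]

theorem chg_d0 (A : W k) :
    chg (p := p) V M N (d0 (ad D 0) (Dec V).subtype A) =
      cobM (matRep D V M N hNM) (N * A.1 * M) := by
  have hMN : M * N = 1 := mul_eq_one_comm.1 hNM
  funext σ
  have e : rdi D σ = rd D σ⁻¹ := by
    show _ = (D.rb ((σ⁻¹ : Dec V) : GG) : M2 k)
    rw [Subgroup.coe_inv, map_inv]
  have h1 : (ad D 0 (σ : GG) A).1 = rd D σ * A.1 * rd D σ⁻¹ := by rw [ad_zero_val, ← e]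
  rw [chg_apply, d0_apply, Subgroup.coe_subtype, Submodule.coe_sub, h1, cobM_apply, matRep_apply,
    matRep_apply, mul_sub, sub_mul]
  simp only [mul_assoc]
  rw [← mul_assoc M N, hMN, one_mul, ← mul_assoc M N, hMN, one_mul]

theorem chg_injective : Function.Injective (chg (p := p) (k := k) V M N) := by
  have hMN : M * N = 1 := mul_eq_one_comm.1 hNM
  intro a b h
  funext σ
  refine Subtype.ext ?_
  have h1 := congrArg (fun A => M * A * N) (congrFun h σ)
  simp only [chg_apply, ← mul_assoc, hMN, one_mul] at h1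
  simpa only [mul_assoc, hMN, mul_one] using h1

/-- A bound in the new basis gives a local space. -/
theorem exists_isLoc (Lm : Submodule (ZMod p) (Dec V → M2 k)) (hfin : FiniteDimensional (ZMod p) Lm)
    (hcob : ∀ A : M2 k, A.trace = 0 → cobM (matRep D V M N hNM) A ∈ Lm) (n : ℕ)
    (hn : Module.finrank (ZMod p) Lm ≤ n) :
    ∃ L, IsLoc D V L ∧ Module.finrank (ZMod p) ↥L ≤ n ∧
      ∀ c ∈ Z1 (ad D 0) (Dec V).subtype, chg (p := p) V M N c ∈ Lm → c ∈ L := by
  set L := Z1 (ad D 0) (Dec V).subtype ⊓ Lm.comap (chg (p := p) V M N) with hL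
  let E : ↥L →ₗ[ZMod p] ↥Lm :=
    (chg (p := p) V M N ∘ₗ L.subtype).codRestrict Lm fun c => c.2.2
  have hE : Function.Injective E := fun a b h =>
    Subtype.ext (chg_injective V hNM (congrArg Subtype.val h))
  haveI := hfin
  haveI : FiniteDimensional (ZMod p) ↥L := Module.Finite.of_injective E hE
  refine ⟨L, ⟨inf_le_left, ?_, inferInstance⟩,
    (LinearMap.finrank_le_finrank_of_injective hE).trans hn, fun c hc h => ⟨hc, h⟩⟩
  intro c hc
  refine ⟨B1_le_Z1 D hc, ?_⟩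
  obtain ⟨A, rfl⟩ := hc
  show chg (p := p) V M N _ ∈ Lm
  rw [chg_d0 D V hNM]
  refine hcob _ ?_
  rw [Matrix.trace_mul_cycle, mul_eq_one_comm.1 hNM, one_mul, trace_val]

/-- Flatness of the residual representation in the new basis. -/
theorem flat_matRep (h : FlatI V (actR D V)) :
    FlatI V fun σ => (matRep D V M N hNM σ).mulVecLin := by
  have hMN : M * N = 1 := mul_eq_one_comm.1 hNM
  refine h.restrict M.mulVecLin (fun a b e => ?_) fun σ _ x => ?_
  · have h1 : N *ᵥ (M *ᵥ a) = N *ᵥ (M *ᵥ b) := congrArg (N *ᵥ ·) e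
    rwa [Matrix.mulVec_mulVec, Matrix.mulVec_mulVec, hNM, Matrix.one_mulVec,
      Matrix.one_mulVec] at h1
  · show M *ᵥ ((N * rd D σ * M) *ᵥ x) = rd D σ *ᵥ (M *ᵥ x)
    rw [Matrix.mulVec_mulVec, Matrix.mulVec_mulVec, ← mul_assoc, ← mul_assoc, hMN, one_mul]

/-- Flatness of a lift in the new basis. -/
theorem flat_chg {c : Dec V → W k} (h : FlatI V (actC D V c)) :
    FlatI V (actM (matRep D V M N hNM) (chg (p := p) V M N c)) := by
  have hMN : M * N = 1 := mul_eq_one_comm.1 hNM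
  refine h.restrict (M.mulVecLin.prodMap M.mulVecLin) (fun a b e => ?_) fun σ _ y => ?_
  · have key : ∀ {u w : Fin 2 → k}, M *ᵥ u = M *ᵥ w → u = w := fun {u w} h => by
      have h1 := congrArg (N *ᵥ ·) h
      simp only [Matrix.mulVec_mulVec, hNM, Matrix.one_mulVec] at h1
      exact h1
    exact Prod.ext (key (congrArg Prod.fst e)) (key (congrArg Prod.snd e))
  · obtain ⟨x, v⟩ := y
    show (M *ᵥ _, M *ᵥ _) = (rd D σ *ᵥ (M *ᵥ x), rd D σ *ᵥ (M *ᵥ v) + ((c σ).1 * rd D σ) *ᵥ (M *ᵥ x))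
    rw [actM_apply, matRep_apply, chg_apply]
    refine Prod.ext ?_ ?_
    · show M *ᵥ ((N * rd D σ * M) *ᵥ x) = _
      rw [Matrix.mulVec_mulVec, Matrix.mulVec_mulVec, ← mul_assoc, ← mul_assoc, hMN, one_mul]
    · show M *ᵥ ((N * rd D σ * M) *ᵥ v + (N * (c σ).1 * M * (N * rd D σ * M)) *ᵥ x) = _
      simp only [Matrix.mulVec_add, Matrix.mulVec_mulVec, ← mul_assoc, hMN, one_mul]
      rw [mul_assoc _ M N, hMN, mul_one]

omit hNM in
/-- A basis starting with a given vector. -/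
theorem exists_basis_change {v₀ : Fin 2 → k} (hv : v₀ ≠ 0) :
    ∃ M N : M2 k, N * M = 1 ∧ M *ᵥ ![1, 0] = v₀ := by
  obtain ⟨M, hM, hMx⟩ : ∃ M : M2 k, M.det ≠ 0 ∧ M *ᵥ ![1, 0] = v₀ := by
    by_cases h0 : v₀ 0 = 0
    · refine ⟨!![v₀ 0, 1; v₀ 1, 0], ?_, ?_⟩
      · have h1 : v₀ 1 ≠ 0 := fun e => hv (funext fun i => by fin_cases i <;> assumption)
        simp [Matrix.det_fin_two, h1]
      · funext i; fin_cases i <;> simp [Matrix.mulVec, dotProduct, Fin.sum_univ_two]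
    · refine ⟨!![v₀ 0, 0; v₀ 1, 1], ?_, ?_⟩
      · simp [Matrix.det_fin_two, h0]
      · funext i; fin_cases i <;> simp [Matrix.mulVec, dotProduct, Fin.sum_univ_two]
  exact ⟨M, M⁻¹, Matrix.nonsing_inv_mul M (isUnit_iff_ne_zero.2 hM), hMx⟩

end FLTAgent.TWPrimes.Local
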