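import Fermat.Agent.TWPrimes.Local.Change
import Fermat.Agent.FlatLocal.Bound

/-!
# Characters and flat extensions of characters over the prime field
-/

set_option autoImplicit false
set_option linter.style.haveILetI false
set_option linter.unusedSectionVars false

noncomputable section

open scoped Pointwise Matrix
open IsLocalRing

namespace FLTAgent.TWPrimes.Local

open FLTAgent.FlatLocal

local notation "M2" => Matrix (Fin 2) (Fin 2)

variable {P : ValuationSubring (AlgebraicClosure ℚ)} {p : ℕ} [Fact p.Prime] {k : Type} [Field k]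
  [Algebra (ZMod p) k]

theorem exists_algebraMap_of_pow {z : k} (h : z ^ p = z) :
    ∃ a : ZMod p, algebraMap (ZMod p) k a = z := by
  haveI := charP_local p k
  have h1 := (Subfield.mem_bot_iff_pow_eq_self k p).2 h
  rw [← ZMod.fieldRange_castHom_eq_bot p, RingHom.mem_fieldRange] at h1
  obtain ⟨a, ha⟩ := h1
  exact ⟨a, (DFunLike.congr_fun (Subsingleton.elim (algebraMap (ZMod p) k)
    (ZMod.castHom (m := p) dvd_rfl k)) a).trans ha⟩

theorem isWild_conj {σ : Dec P} (h : IsWild P σ) (g : Dec P) : IsWild P (g * σ * g⁻¹) :=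
  ⟨h.1.conj g, fun x hx => by
    rw [mul_assoc, thx_mul hx, thx_mul_ine hx h.1, h.2 x hx, one_mul, ← thx_mul hx,
      mul_inv_cancel, thx_one_left hx]⟩

/-- The order of the units of `k` is a tame index. -/
theorem tame_index [Finite k] :
    0 < Nat.card k - 1 ∧ (p - 1) ∣ Nat.card k - 1 ∧ ¬ p ∣ Nat.card k - 1 := by
  haveI := charP_local p k
  letI := Fintype.ofFinite k
  obtain ⟨n, -, hn⟩ := FiniteField.card k p
  rw [Nat.card_eq_fintype_card, hn]
  have hp := (Fact.out : p.Prime).two_le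
  have h2 : p ∣ p ^ (n : ℕ) := dvd_pow_self p n.pos.ne'
  have h3 : 2 ≤ p ^ (n : ℕ) := le_trans hp (Nat.le_of_dvd (pow_pos (by omega) _) h2)
  refine ⟨by omega, by simpa using Nat.sub_dvd_pow_sub_pow p 1 (n : ℕ), fun h => ?_⟩
  have h4 := Nat.dvd_sub h2 h
  rw [Nat.sub_sub_self (by omega : 1 ≤ p ^ (n : ℕ))] at h4
  exact absurd (Nat.le_of_dvd one_pos h4) (by omega)

theorem pow_card_sub_one [Finite k] {a : k} (ha : a ≠ 0) : a ^ (Nat.card k - 1) = 1 := by
  letI := Fintype.ofFinite k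
  rw [Nat.card_eq_fintype_card]
  exact FiniteField.pow_card_sub_one_eq_one a ha

theorem char_pow {χ : Dec P → k} (h1 : χ 1 = 1) (hmul : ∀ σ τ, χ (σ * τ) = χ σ * χ τ) (σ : Dec P)
    (n : ℕ) : χ (σ ^ n) = χ σ ^ n := by
  induction n with
  | zero => rw [pow_zero, pow_zero, h1]
  | succ n ih => rw [pow_succ, hmul, ih, pow_succ]

/-- A character of a number field level is tame, with values in the prime field on inertia. -/
theorem char_tame [Finite k] (hP : P.LiesOverPrime p) (t : TameData P p) (he : t.e = p - 1)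
    {χ : Dec P → k} (hl : LevC P χ) (h1 : χ 1 = 1) (hmul : ∀ σ τ, χ (σ * τ) = χ σ * χ τ) :
    (∀ σ, IsIne P σ → ∃ a : ZMod p, χ σ = algebraMap (ZMod p) k a) ∧ ∀ g ∈ t.G, χ g = 1 := by
  haveI := charP_local p k
  have h0 : ∀ σ, χ σ ≠ 0 := fun σ e => one_ne_zero (α := k) (by
    rw [← h1, ← mul_inv_cancel σ, hmul, e, zero_mul])
  let F : Dec P → kˣ := fun σ => Units.mk0 (χ σ) (h0 σ)
  have hFl : LevC P F := by
    obtain ⟨E, hE, hlev⟩ := hl
    exact ⟨E, hE, fun g s hs => Units.ext (hlev g s hs)⟩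
  have hwild : ∀ σ, IsWild P σ → F σ = 1 := fun σ hσ => Units.ext (by
    obtain ⟨E, hE, hlev⟩ := hl
    haveI := hE
    obtain ⟨n, hn⟩ := hσ.exists_pow_mem hP E
    have h2 := hlev 1 _ hn
    rw [one_mul, h1, char_pow h1 hmul] at h2
    show χ σ = 1
    refine sub_eq_zero.1 ((pow_eq_zero_iff (pow_ne_zero n (Fact.out : p.Prime).ne_zero)).1 ?_)
    rw [sub_pow_char_pow, one_pow, h2, sub_self])
  obtain ⟨hq, hdvd, hndvd⟩ := tame_index (p := p) (k := k)
  obtain ⟨t', ht'⟩ := TameData.exists_data P (p := p) _ hq hdvd hndvd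
  obtain ⟨τ, hτ, hθ⟩ := t'.exists_tau hP
  obtain ⟨φ, hφ⟩ := exists_frob hP
  have hG' : ∀ g ∈ t'.G, F g = 1 := fun g hg =>
    t'.hom_trivial hP F hFl (fun a b _ _ => Units.ext (hmul a b)) hwild
      (fun σ _ => Units.ext (by
        rw [Units.val_pow_eq_pow_val, ht']; exact pow_card_sub_one (h0 σ))) hg
  have hτp : χ τ ^ (p - 1) = 1 := by
    obtain ⟨g, hg, e⟩ := t'.frob_conj_decomp hP hφ hτ
    have h2 := congrArg χ e
    rw [hmul, hmul, hmul, char_pow h1 hmul,
      show χ g = 1 from congrArg Units.val (hG' g hg), mul_one, mul_right_comm, ← hmul,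
      mul_inv_cancel, h1, one_mul] at h2
    refine mul_left_cancel₀ (h0 τ) ?_
    rw [← pow_succ', Nat.sub_add_cancel (Fact.out : p.Prime).one_le, mul_one]
    exact h2.symm
  have hpow : ∀ σ, IsIne P σ → χ σ ^ (p - 1) = 1 := by
    intro σ hσ
    obtain ⟨i, g, hg, rfl⟩ := t'.ine_decomp hP hτ hθ hσ
    rw [hmul, show χ g = 1 from congrArg Units.val (hG' g hg), mul_one, char_pow h1 hmul, ← pow_mul,
      mul_comm, pow_mul, hτp, one_pow]
  refine ⟨fun σ hσ => (exists_algebraMap_of_pow ?_).imp fun a ha => ha.symm, fun g hg =>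
    congrArg Units.val (t.hom_trivial hP F hFl (fun a b _ _ => Units.ext (hmul a b)) hwild
      (fun σ hσ => Units.ext (by rw [Units.val_pow_eq_pow_val, he]; exact hpow σ hσ)) hg)⟩
  have h3 := hpow σ hσ
  calc χ σ ^ p = χ σ ^ (p - 1) * χ σ := by
        rw [← pow_succ, Nat.sub_add_cancel (Fact.out : p.Prime).one_le]
    _ = χ σ := by rw [h3, one_mul]

/-- The line over the prime field with a character. -/
def lineAct (a : Dec P → ZMod p) (σ : Dec P) : Module.End (ZMod p) (ZMod p) := a σ • LinearMap.id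

/-- The character of a flat line is cyclotomic or trivial on inertia. -/
theorem flat_line_char (hP : P.LiesOverPrime p) (t : TameData P p) {ζ : AlgebraicClosure ℚ}
    (hζ : IsPrimitiveRoot ζ p) (he : t.e = p - 1) {a : Dec P → ZMod p}
    (hG : ∀ g ∈ t.G, a g = 1) (hflat : FlatI P (lineAct a)) :
    (∀ σ, IsIne P σ → a σ = omega ζ σ) ∨ ∀ σ, IsIne P σ → a σ = 1 := by
  classical
  obtain ⟨S, hS⟩ := hflat
  have hfix : ∀ g ∈ t.G, lineAct a g (1 : ZMod p) = 1 := fun g hg => by simp [lineAct, hG g hg]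
  obtain ⟨n, hn, hd⟩ := t.exists_dist_pow hP hS one_ne_zero hfix
  rw [t.e1_eq_one he] at hn
  rcases Nat.le_one_iff_eq_zero_or_eq_one.1 hn with rfl | rfl
  · refine Or.inr fun σ hσ => ?_
    by_contra hne
    have h1 : lineAct a σ (1 : ZMod p) - 1 ∈ hS.conn := hS.dist_act_sub_lt hσ 1
    have h2 := hS.conn.smul_mem (a σ - 1)⁻¹ h1
    have h3 : (1 : ZMod p) ∈ hS.conn := by
      simpa [lineAct, inv_mul_cancel₀ (sub_ne_zero.2 hne)] using h2
    have h4 : dist P S (1 : ZMod p) < 1 := h3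
    rw [hd, pow_zero] at h4
    exact lt_irrefl _ h4
  · refine Or.inl fun σ hσ => ?_
    have h1 := t.eigen_eq hP hS one_pos hd hσ (a := a σ) (by simp [lineAct])
    rw [pow_one, ← t.kp_omega hP hζ he hσ] at h1
    exact ((kp hP).injective h1).symm

/-- The extension of the cyclotomic line by the trivial one, on the plane. -/
def planeAct (ζ : AlgebraicClosure ℚ) (ν : Dec P → ZMod p) (σ : Dec P) :
    Module.End (ZMod p) (Vec2 p) :=
  (!![1, ν σ; 0, omega ζ σ] : Mat2 p).mulVecLin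

theorem planeAct_apply (ζ : AlgebraicClosure ℚ) (ν : Dec P → ZMod p) (σ : Dec P) (x : Vec2 p) :
    planeAct ζ ν σ x = ![x 0 + ν σ * x 1, omega ζ σ * x 1] := by
  funext i
  fin_cases i <;> simp [planeAct, Matrix.mulVec, dotProduct, Fin.sum_univ_two]

/-- A flat extension of the cyclotomic line by the trivial one splits. -/
theorem ext_split (hP : P.LiesOverPrime p) (hp3 : 3 ≤ p) (t : TameData P p)
    {ζ : AlgebraicClosure ℚ} (hζ : IsPrimitiveRoot ζ p) (he : t.e = p - 1) {τ : Dec P}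
    (hτ : IsIne P τ) (hθ : IsPrimitiveRoot (t.th τ) t.e) {ν : Dec P → ZMod p}
    (hflat : FlatI P (planeAct ζ ν)) {σ : Dec P} (hσ : IsIne P σ) :
    ν σ * (omega ζ τ - 1) = ν τ * (omega ζ σ - 1) := by
  classical
  obtain ⟨S, hS⟩ := hflat
  have hw := sub_ne_zero.2 (t.omega_tau_ne_one hP hp3 hζ he hτ hθ)
  set z : Vec2 p := ![ν τ, omega ζ τ - 1]
  have hz : z ∈ hS.conn := by
    have h1 : planeAct ζ ν τ ![0, 1] - ![0, 1] ∈ hS.conn := hS.dist_act_sub_lt hτ _
    rwa [planeAct_apply, show (![(![(0 : ZMod p), 1] : Vec2 p) 0 + ν τ * (![(0 : ZMod p), 1] : Vec2 p) 1,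
      omega ζ τ * (![(0 : ZMod p), 1] : Vec2 p) 1] : Vec2 p) - ![0, 1] = z from by
        funext i; fin_cases i <;> simp [z]] at h1
  have he0 : (![1, 0] : Vec2 p) ∉ hS.conn := by
    intro hc
    have hne : (![1, 0] : Vec2 p) ≠ 0 := fun e => by simpa using congrFun e 0
    have hfix : ∀ g, IsIne P g → planeAct ζ ν g ![1, 0] = ![1, 0] := fun g _ => by
      rw [planeAct_apply]
      funext i; fin_cases i <;> simp
    obtain ⟨n, hn, hd⟩ := t.exists_dist_pow hP hS hne fun g hg => hfix g hg.1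
    rw [t.e1_eq_one he] at hn
    have h0 : n ≠ 0 := fun e => by
      have h4 : dist P S (![1, 0] : Vec2 p) < 1 := hc
      rw [hd, e, pow_zero] at h4
      exact lt_irrefl _ h4
    obtain rfl : n = 1 := by omega
    have h1 := t.eigen_eq hP hS one_pos hd hτ (a := 1) (by rw [one_smul]; exact hfix τ hτ)
    rw [map_one] at h1
    exact t.th_tau_pow_ne_one hp3 he hθ one_pos (by omega) h1
  have h1 : planeAct ζ ν σ z - omega (p := p) ζ σ • z ∈ hS.conn := hS.conn.sub_mem (by
    show dist P S _ < 1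
    rw [hS.dist_act hσ]; exact hz) (hS.conn.smul_mem _ hz)
  by_contra hne
  refine he0 ?_
  set d := ν τ + ν σ * (omega ζ τ - 1) - omega ζ σ * ν τ with hd
  have hd0 : d ≠ 0 := fun e => hne (by rw [hd] at e; linear_combination e)
  have h2 := hS.conn.smul_mem d⁻¹ h1
  convert h2 using 1
  rw [planeAct_apply]
  funext i
  fin_cases i
  · simp [z, hd]
    field_simp
    exact (div_self (by
      intro e
      exact hd0 (by rw [hd]; linear_combination e))).symm
  · simp [z]

end FLTAgent.TWPrimes.Local
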