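import Fermat.Agent.TWPrimes.Local.FlatNormal
import Fermat.Agent.TWPrimes.Local.Ord

/-!
# Flat lifts of a plane with a stable line, over a finite field

After subtracting a coboundary the lift is upper triangular with diagonal trivial on inertia, and
every coordinate of the upper corner is a unit class.
-/

set_option autoImplicit false
set_option linter.style.haveILetI false
set_option linter.unusedSectionVars false

noncomputable section

open scoped Pointwise Matrix
open IsLocalRing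

namespace FLTAgent.TWPrimes.Local

open FLTAgent.FlatLocal (Dec LevC IsIne FlatI omega TameData Vec2 Mat2 actW IsOrd IsCocycle
  omega_ne_zero omega_mul omega_one omega_conj eq_neg_corner exists_frob)

local notation "QQb" => AlgebraicClosure ℚ
local notation "M2" => Matrix (Fin 2) (Fin 2)

variable {P : ValuationSubring (AlgebraicClosure ℚ)} {p : ℕ} [Fact p.Prime] {k : Type} [Field k]
  [Algebra (ZMod p) k] [Finite k] {r : Dec P →* M2 k} {ζ : AlgebraicClosure ℚ}
  (h : IsUpOrd p ζ r) (hP : P.LiesOverPrime p) (hp3 : 3 ≤ p) (hζ : IsPrimitiveRoot ζ p)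
  (t : TameData P p) (he : t.e = p - 1) {τ : Dec P} (hτ : IsIne P τ)
  (hθ : IsPrimitiveRoot (t.th τ) t.e) (hlev : LevC P r)

include h

theorem uChar_ine {σ : Dec P} (hσ : IsIne P σ) :
    r σ 0 0 * r σ⁻¹ 1 1 = algebraMap (ZMod p) k (omega ζ σ) := by
  rw [h.diag0 σ hσ, h.diag1 _ hσ.inv, mul_one]

theorem uChar_lev (hlev : LevC P r) :
    LevC P fun σ => r σ 0 0 * r σ⁻¹ 1 1 := by
  have e : (fun σ => r σ 0 0 * r σ⁻¹ 1 1) = (fun A : M2 k => A 0 0 * (A 1 1)⁻¹) ∘ r := by
    funext σ
    show _ = r σ 0 0 * (r σ 1 1)⁻¹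
    rw [eq_inv_of_mul_eq_one_right (r11_inv h.low σ)]
  rw [e]
  exact hlev.comp fun A : M2 k => A 0 0 * (A 1 1)⁻¹

theorem isTwist_uChar (hlev : LevC P r) : IsTwist p ζ fun σ => r σ 0 0 * r σ⁻¹ 1 1 :=
  ⟨uChar_lev h hlev, by simp, uChar_mul h.low, fun _ hσ => uChar_ine h hσ⟩

include hP hp3 hζ he hτ hθ

theorem omega_tau_ne : algebraMap (ZMod p) k (omega ζ τ) - 1 ≠ 0 := sub_ne_zero.2 fun e =>
  t.omega_tau_ne_one hP hp3 hζ he hτ hθ
    ((algebraMap (ZMod p) k).injective (e.trans (map_one _).symm))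

/-- **Step one**: a flat lift is upper triangular up to a coboundary. -/
theorem exists_low' (hlev : LevC P r) {c : Dec P → M2 k} (hc : c ∈ cocM r p)
    (hflat : FlatI P (actM r c)) :
    ∃ γ : k, ∀ σ, (c - cobM r !![0, 0; γ, 0]) σ 1 0 = 0 := by
  classical
  have hinj := (algebraMap (ZMod p) k).injective
  let b := Module.finBasis (ZMod p) k
  have hsplit : ∀ σ, IsIne P σ →
      algebraMap (ZMod p) k (omega ζ σ) * c σ 1 0 * (algebraMap (ZMod p) k (omega ζ τ) - 1) =
        algebraMap (ZMod p) k (omega ζ τ) * c τ 1 0 *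
          (algebraMap (ZMod p) k (omega ζ σ) - 1) := by
    intro σ hσ
    refine sub_eq_zero.1 (b.forall_coord_eq_zero_iff.1 fun i => ?_)
    let ν : Dec P → k := fun σ => algebraMap (ZMod p) k (omega ζ σ) * c σ 1 0
    let act1 : Dec P → Module.End (ZMod p) ((Fin 2 → k) × ZMod p) := fun σ =>
      ((r σ).mulVecLin.restrictScalars (ZMod p) ∘ₗ LinearMap.fst _ _ _ +
        (LinearMap.toSpanSingleton (ZMod p) (Fin 2 → k) ((c σ * r σ) *ᵥ ![1, 0])) ∘ₗ
          LinearMap.snd _ _ _).prod (omega (p := p) ζ σ • LinearMap.snd _ _ _)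
    let e1 : ZMod p →ₗ[ZMod p] (Fin 2 → k) :=
      LinearMap.pi ![Algebra.linearMap (ZMod p) k, 0]
    have hs1 : FlatI P act1 :=
      hflat.restrict ((e1 ∘ₗ LinearMap.snd _ _ _).prod (LinearMap.fst _ _ _) :
          (Fin 2 → k) × ZMod p →ₗ[ZMod p] (Fin 2 → k) × (Fin 2 → k))
        (fun x y e => Prod.ext (congrArg Prod.snd e :)
          (hinj (by simpa [e1] using congrFun (congrArg Prod.fst e) 0)))
        fun σ hσ x => by
          refine Prod.ext ?_ ?_
          · funext j
            fin_cases j <;>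
              simp [act1, e1, actM, Matrix.mulVec, dotProduct, Fin.sum_univ_two, h.low σ,
                h.diag0 σ hσ]
          · funext j
            fin_cases j <;>
              simp [act1, e1, actM, Matrix.mulVec, dotProduct, Matrix.mul_apply, Fin.sum_univ_two,
                Algebra.smul_def (R := ZMod p) (A := k), mul_comm, add_mul, mul_add, mul_left_comm]
    have hs2 : FlatI P (planeAct ζ fun σ => b.coord i (ν σ)) :=
      hs1.quotient hP (LinearMap.pi ![b.coord i ∘ₗ LinearMap.proj 1 ∘ₗ LinearMap.fst _ _ _,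
          LinearMap.snd _ _ _] : (Fin 2 → k) × ZMod p →ₗ[ZMod p] Vec2 p)
        (fun q => ⟨(![0, q 0 • b i], q 1), funext fun j => by fin_cases j <;> simp⟩)
        fun σ hσ x => by
          rw [planeAct_apply]
          funext j
          fin_cases j <;>
            simp [act1, ν, Matrix.mulVec, dotProduct, Matrix.mul_apply, Fin.sum_univ_two, h.low σ,
              h.diag0 σ hσ, h.diag1 σ hσ, mul_comm]
    have hE := ext_split hP hp3 t hζ he hτ hθ hs2 hσ
    have e2 : ∀ (z : ZMod p) (y : k),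
        b.coord i (y * (algebraMap (ZMod p) k z - 1)) = b.coord i y * (z - 1) := fun z y => by
      rw [mul_comm, ← map_one (algebraMap (ZMod p) k), ← map_sub, ← Algebra.smul_def, map_smul,
        smul_eq_mul, mul_comm]
    rw [map_sub, e2, e2, hE, sub_self]
  set K := algebraMap (ZMod p) k (omega ζ τ) * c τ 1 0 / (algebraMap (ZMod p) k (omega ζ τ) - 1)
    with hK
  have hwτ := omega_tau_ne h hP hp3 hζ t he hτ hθ
  set c' := c - cobM r !![0, 0; -K, 0] with hc'def
  have hc' : c' ∈ cocM r p := sub_mem hc (cobM_mem r hlev (by simp [Matrix.trace_fin_two]))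
  have hI : ∀ σ, IsIne P σ → c' σ 1 0 = 0 := by
    intro σ hσ
    have hw : algebraMap (ZMod p) k (omega ζ σ) ≠ 0 := fun e =>
      omega_ne_zero hζ σ (hinj (e.trans (map_zero _).symm))
    have e0 := r00_inv h.low σ
    rw [h.diag0 σ hσ] at e0
    have hs := hsplit σ hσ
    rw [hc'def, Pi.sub_apply, Matrix.sub_apply, cobM_apply, Matrix.sub_apply, tri10 h.low,
      h.diag1 σ hσ, one_mul]
    refine mul_left_cancel₀ hw (mul_right_cancel₀ hwτ ?_)
    rw [mul_zero, zero_mul]
    have hKe : K * (algebraMap (ZMod p) k (omega ζ τ) - 1) =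
        algebraMap (ZMod p) k (omega ζ τ) * c τ 1 0 := div_mul_cancel₀ _ hwτ
    simp only [show (!![(0 : k), 0; -K, 0] : M2 k) 1 0 = -K by simp]
    linear_combination hs + (1 - algebraMap (ZMod p) k (omega ζ σ)) * hKe +
      K * (algebraMap (ZMod p) k (omega ζ τ) - 1) * e0
  obtain ⟨φ, hφ⟩ := exists_frob hP
  have hν : (fun σ => c' σ 1 0) ∈ twSpace p fun σ => r σ 1 1 * r σ⁻¹ 0 0 :=
    ⟨hc'.1.comp fun A : M2 k => A 1 0, low_mul h.low hc'⟩
  refine ⟨-K, tw_eq_zero hP hφ hν hI (tw_frob hν hI hτ ?_)⟩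
  intro e
  have hσ' := hτ.conj φ
  have e0 := r00_inv h.low (φ * τ * φ⁻¹)
  rw [h.diag1 _ hσ', one_mul] at e
  rw [e, mul_one, h.diag0 _ hσ'] at e0
  have h1 := omega_conj (p := p) hζ φ⁻¹ τ
  rw [inv_inv] at h1
  rw [h1] at e0
  exact sub_ne_zero.1 hwτ e0

/-- **Step two**: the diagonal is unramified. -/
theorem diag_eq_zero' {c : Dec P → M2 k} (hc : c ∈ cocM r p) (hl : ∀ σ, c σ 1 0 = 0)
    (hflat : FlatI P (actM r c)) {σ₀ : Dec P} (hσ₀ : IsIne P σ₀) : c σ₀ 0 0 = 0 := by
  classical
  have hinj := (algebraMap (ZMod p) k).injective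
  let b := Module.finBasis (ZMod p) k
  refine b.forall_coord_eq_zero_iff.1 fun i => ?_
  set d : Dec P → ZMod p := fun σ => b.coord i (c σ 0 0) with hd
  let rF : Dec P →* Mat2 p :=
    { toFun := fun σ => !![omega ζ σ, 0; 0, 1]
      map_one' := by rw [omega_one hζ]; exact Matrix.one_fin_two.symm
      map_mul' := fun σ σ' => by simp [omega_mul hζ] }
  have hrF : ∀ σ, rF σ = !![omega ζ σ, 0; 0, 1] := fun σ => rfl
  have hord : IsOrd t ζ rF τ :=
    ⟨he, hτ, hθ, fun σ => by simp [hrF], fun σ _ => by simp [hrF], fun σ _ => by simp [hrF]⟩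
  let cF : Dec P → Mat2 p := fun σ => !![d σ, 0; 0, -d σ]
  have hcF : IsCocycle rF cF :=
    { lev := hc.1.comp fun A : M2 k => (!![b.coord i (A 0 0), 0; 0, -b.coord i (A 0 0)] : Mat2 p)
      trace := fun σ => by simp [cF, Matrix.trace_fin_two]
      mul := fun σ σ' => by
        have hw : omega (p := p) ζ σ * omega (p := p) ζ σ⁻¹ = 1 := by
          rw [← omega_mul hζ, mul_inv_cancel, omega_one hζ]
        have hdd : d (σ * σ') = d σ + d σ' := by simp [hd, diag_mul h.low hc hl]
        simp only [cF, hrF, hdd]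
        ext a a'
        fin_cases a <;> fin_cases a' <;> simp [Matrix.mul_apply, Fin.sum_univ_two]
        · linear_combination -(d σ') * hw
        · ring }
  -- the line in both components
  let act1 : Dec P → Module.End (ZMod p) (k × ZMod p) := fun σ =>
    (omega (p := p) ζ σ • LinearMap.fst _ _ _ + omega (p := p) ζ σ •
      (LinearMap.toSpanSingleton (ZMod p) k (c σ 0 0) ∘ₗ LinearMap.snd _ _ _)).prod
      (omega (p := p) ζ σ • LinearMap.snd _ _ _)
  let e0 : k →ₗ[ZMod p] (Fin 2 → k) := LinearMap.pi ![LinearMap.id, 0]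
  have hA1 : FlatI P act1 :=
    hflat.restrict ((e0 ∘ₗ Algebra.linearMap (ZMod p) k ∘ₗ LinearMap.snd _ _ _).prod
        (e0 ∘ₗ LinearMap.fst _ _ _) : k × ZMod p →ₗ[ZMod p] (Fin 2 → k) × (Fin 2 → k))
      (fun x y e => Prod.ext (by simpa [e0] using congrFun (congrArg Prod.snd e) 0)
        (hinj (by simpa [e0] using congrFun (congrArg Prod.fst e) 0)))
      fun σ hσ x => by
        refine Prod.ext ?_ ?_
        · funext j
          fin_cases j <;>
            simp [act1, e0, actM, Matrix.mulVec, dotProduct, Fin.sum_univ_two, h.low σ,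
              h.diag0 σ hσ]
        · funext j
          fin_cases j <;>
            simp [act1, e0, actM, Matrix.mulVec, dotProduct, Matrix.mul_apply, Fin.sum_univ_two,
              h.low σ, hl σ, h.diag0 σ hσ, Algebra.smul_def]
          ring
  let actA : Dec P → Module.End (ZMod p) (Vec2 p) := fun σ =>
    (!![omega ζ σ, 0; omega ζ σ * d σ, omega ζ σ] : Mat2 p).mulVecLin
  have hA : FlatI P actA :=
    hA1.quotient hP (LinearMap.pi ![LinearMap.snd _ _ _, b.coord i ∘ₗ LinearMap.fst _ _ _] :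
        k × ZMod p →ₗ[ZMod p] Vec2 p)
      (fun q => ⟨(q 1 • b i, q 0), funext fun j => by fin_cases j <;> simp⟩) fun σ hσ x => by
        funext j
        fin_cases j <;>
          simp [act1, actA, hd, Matrix.mulVec, dotProduct, Fin.sum_univ_two]
        ring
  -- the quotient in both components
  let actQ : Dec P → Module.End (ZMod p) (k × k) := fun σ =>
    (LinearMap.fst (ZMod p) k k).prod
      (LinearMap.snd _ _ _ + LinearMap.mulLeft (ZMod p) (c σ 1 1) ∘ₗ LinearMap.fst _ _ _)
  have hQ : FlatI P actQ :=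
    hflat.quotient hP
      ((LinearMap.proj 1 ∘ₗ LinearMap.fst _ _ _).prod (LinearMap.proj 1 ∘ₗ LinearMap.snd _ _ _) :
        (Fin 2 → k) × (Fin 2 → k) →ₗ[ZMod p] k × k)
      (fun q => ⟨(![0, q.1], ![0, q.2]), by simp⟩) fun σ hσ x => by
        refine Prod.ext ?_ ?_
        · simp [actQ, actM, Matrix.mulVec, dotProduct, Fin.sum_univ_two, h.low σ, h.diag1 σ hσ]
        · simp [actQ, actM, Matrix.mulVec, dotProduct, Matrix.mul_apply, Fin.sum_univ_two, h.low σ,
            hl σ, h.diag1 σ hσ]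
  let actB1 : Dec P → Module.End (ZMod p) (ZMod p × k) := fun σ =>
    (LinearMap.fst _ _ _).prod (LinearMap.snd _ _ _ +
      LinearMap.toSpanSingleton (ZMod p) k (c σ 1 1) ∘ₗ LinearMap.fst _ _ _)
  have hB1 : FlatI P actB1 :=
    hQ.restrict ((Algebra.linearMap (ZMod p) k).prodMap LinearMap.id)
      (fun x y e => Prod.ext (hinj (congrArg Prod.fst e :)) (congrArg Prod.snd e :))
      fun σ hσ x => by
        refine Prod.ext rfl ?_
        show _ + x.1 • c σ 1 1 = _ + c σ 1 1 * algebraMap (ZMod p) k x.1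
        rw [Algebra.smul_def, mul_comm]
        rfl
  let actB : Dec P → Module.End (ZMod p) (Vec2 p) := fun σ =>
    (!![1, 0; -d σ, 1] : Mat2 p).mulVecLin
  have hB : FlatI P actB :=
    hB1.quotient hP (LinearMap.pi ![LinearMap.fst _ _ _, b.coord i ∘ₗ LinearMap.snd _ _ _] :
        ZMod p × k →ₗ[ZMod p] Vec2 p)
      (fun q => ⟨(q 0, q 1 • b i), funext fun j => by fin_cases j <;> simp⟩) fun σ hσ x => by
        have h11 : c σ 1 1 = -c σ 0 0 := by
          have h1 := hc.2.1 σ
          rw [Matrix.trace_fin_two] at h1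
          exact eq_neg_of_add_eq_zero_right h1
        funext j
        fin_cases j <;>
          simp [actB1, actB, hd, h11, Matrix.mulVec, dotProduct, Fin.sum_univ_two]
        ring
  have hW : FlatI P (actW rF cF) := by
    let ι : (Vec2 p × Vec2 p) ≃+ (Vec2 p × Vec2 p) :=
      { toFun := fun x => (![x.1 0, x.2 0], ![x.1 1, x.2 1])
        invFun := fun x => (![x.1 0, x.2 0], ![x.1 1, x.2 1])
        left_inv := fun x => by
          refine Prod.ext ?_ ?_ <;> funext j <;> fin_cases j <;> simp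
        right_inv := fun x => by
          refine Prod.ext ?_ ?_ <;> funext j <;> fin_cases j <;> simp
        map_add' := fun x y => by
          refine Prod.ext ?_ ?_ <;> funext j <;> fin_cases j <;> simp }
    refine (FlatI.prod hA hB (fun σ => (actA σ).prodMap (actB σ)) fun σ _ x => rfl).congr ι
      fun σ hσ x => ?_
    refine Prod.ext ?_ ?_ <;> funext j <;> fin_cases j <;>
      simp [ι, actW, actA, actB, cF, hrF, Matrix.mulVec, dotProduct, Fin.sum_univ_two]
    all_goals ring
  have := hord.diag_eq_zero hP hp3 hζ hcF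
    (fun σ => show (!![d σ, 0; 0, -d σ] : Mat2 p) 1 0 = 0 by simp) hW hσ₀
  simpa [cF, hd] using this

/-- **Step three**: the coordinates of the corner are unit classes. -/
theorem lev_corner' (hlev : LevC P r) {c : Dec P → M2 k} (hc : c ∈ cocM r p)
    (hl : ∀ σ, c σ 1 0 = 0) (hd : ∀ σ, IsIne P σ → c σ 0 0 = 0) (hflat : FlatI P (actM r c))
    (l : k →ₗ[ZMod p] ZMod p) : t.Lev ζ (fun σ => l (c σ 0 1)) 1 := by
  classical
  have hinj := (algebraMap (ZMod p) k).injective
  set ν : Dec P → ZMod p := fun σ => l (c σ 0 1) with hν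
  by_cases htriv : ∀ σ ∈ t.G, ν σ = 0
  · exact t.lev_zero_fun _ htriv
  push Not at htriv
  obtain ⟨σ₀, hσ₀, hne⟩ := htriv
  have hl0 : Function.Surjective l := LinearMap.surjective_iff_ne_zero.2 fun e =>
    hne (by simp [hν, e])
  let act1 : Dec P → Module.End (ZMod p) (k × ZMod p × k) := fun σ =>
    (omega (p := p) ζ σ • LinearMap.fst _ _ _ + LinearMap.toSpanSingleton (ZMod p) k (r σ 0 1) ∘ₗ
      LinearMap.fst _ _ _ ∘ₗ LinearMap.snd _ _ _).prod
      ((LinearMap.fst _ _ _ ∘ₗ LinearMap.snd _ _ _).prod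
        (omega (p := p) ζ σ • (LinearMap.snd _ _ _ ∘ₗ LinearMap.snd _ _ _) +
          LinearMap.toSpanSingleton (ZMod p) k (c σ 0 1) ∘ₗ
            LinearMap.fst _ _ _ ∘ₗ LinearMap.snd _ _ _))
  have h1 : FlatI P act1 :=
    hflat.restrict ((LinearMap.pi ![LinearMap.fst _ _ _,
        Algebra.linearMap (ZMod p) k ∘ₗ LinearMap.fst _ _ _ ∘ₗ LinearMap.snd _ _ _]).prod
        (LinearMap.pi ![LinearMap.snd _ _ _ ∘ₗ LinearMap.snd _ _ _, 0]) :
          k × ZMod p × k →ₗ[ZMod p] (Fin 2 → k) × (Fin 2 → k))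
      (fun x y e => Prod.ext (by simpa using congrFun (congrArg Prod.fst e) 0)
        (Prod.ext (hinj (by simpa using congrFun (congrArg Prod.fst e) 1))
          (by simpa using congrFun (congrArg Prod.snd e) 0)))
      fun σ hσ x => by
        have h11 : c σ 1 1 = 0 := by
          have e := hc.2.1 σ
          rwa [Matrix.trace_fin_two, hd σ hσ, zero_add] at e
        refine Prod.ext ?_ ?_ <;> funext j <;> fin_cases j <;>
          simp [act1, actM, Matrix.mulVec, dotProduct, Matrix.mul_apply, Fin.sum_univ_two, h.low σ,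
            hl σ, hd σ hσ, h11, h.diag0 σ hσ, h.diag1 σ hσ, Algebra.smul_def] <;> ring
  let act2 : Dec P → Module.End (ZMod p) (ZMod p × ZMod p) := fun σ =>
    (LinearMap.fst _ _ _).prod
      (omega (p := p) ζ σ • LinearMap.snd _ _ _ + ν σ • LinearMap.fst _ _ _)
  obtain ⟨S, hS⟩ : FlatI P act2 :=
    h1.quotient hP ((LinearMap.fst _ _ _ ∘ₗ LinearMap.snd _ _ _).prod
        (l ∘ₗ LinearMap.snd _ _ _ ∘ₗ LinearMap.snd _ _ _) :
          k × ZMod p × k →ₗ[ZMod p] ZMod p × ZMod p)
      (fun q => ⟨(0, q.1, (hl0 q.2).choose), Prod.ext rfl (hl0 q.2).choose_spec⟩)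
      fun σ hσ x => by
        refine Prod.ext rfl ?_
        simp [act1, act2, hν]
        ring
  have hu := isTwist_uChar h hlev
  have hwG : ∀ g ∈ t.G, omega (p := p) ζ g = 1 := fun g hg =>
    FlatLocal.omega_eq_one_of_fix hζ (t.fix_zeta hP hg hζ)
  have hhom : t.IsHomG ν :=
    ⟨hc.1.comp fun A : M2 k => l (A 0 1), fun σ hσ σ' hσ' => by
      simp only [hν]
      rw [corner_mul h.low hc hl σ (hd σ' hσ'.1), u_G t hP hζ hu hσ, one_mul, map_add]⟩
  have hfix : ∀ g ∈ t.G, act2 g (0, ν σ₀) = (0, ν σ₀) := fun g hg => by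
    simp [act2, hwG g hg]
  have hz : ((0, ν σ₀) : ZMod p × ZMod p) ≠ 0 := fun e => hne (congrArg Prod.snd e)
  obtain ⟨n, hn, hdist⟩ := t.exists_dist_pow hP hS hz hfix
  have hlev' := t.lev_of_translates hP hζ hS hhom (1, 0) {0} (Finset.mem_singleton_self 0)
    (fun σ hσ h0 w hw => ⟨0, Finset.mem_singleton_self _, by
      rw [Finset.mem_singleton.1 hw]
      simp [act2, show ν σ = 0 from h0]⟩)
    hσ₀ (n := n) (fun w hw => by
      rw [Finset.mem_singleton.1 hw, show act2 σ₀ ((1, 0) + 0) - (1, 0) = (0, ν σ₀) by simp [act2]]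
      exact hdist)
    (by rw [Finset.card_singleton, one_mul]; exact hn)
  exact hlev'.anti t hP hζ (Nat.le_add_right 1 _)

end FLTAgent.TWPrimes.Local
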