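import Fermat.Agent.TWPrimes.Local.FlatChar

/-!
# The normal form of a flat plane with a stable line, over a finite field
-/

set_option autoImplicit false
set_option linter.style.haveILetI false
set_option linter.unusedSectionVars false

noncomputable section

open scoped Pointwise Matrix
open IsLocalRing

namespace FLTAgent.TWPrimes.Local

open FLTAgent.FlatLocal

local notation "M2" => Matrix (Fin 2) (Fin 2)

variable {P : ValuationSubring (AlgebraicClosure ℚ)} {p : ℕ} [Fact p.Prime] {k : Type} [Field k]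
  [Algebra (ZMod p) k] [Finite k]

/-- Inertia acts on the line by the cyclotomic character and trivially on the quotient. -/
structure IsUpOrd (p : ℕ) [Fact p.Prime] [Algebra (ZMod p) k] (ζ : AlgebraicClosure ℚ)
    (r : Dec P →* M2 k) : Prop where
  low : ∀ σ, r σ 1 0 = 0
  diag0 : ∀ σ, IsIne P σ → r σ 0 0 = algebraMap (ZMod p) k (omega ζ σ)
  diag1 : ∀ σ, IsIne P σ → r σ 1 1 = 1

/-- The normal form. -/
theorem exists_upOrd (hP : P.LiesOverPrime p) (hp3 : 3 ≤ p) {ζ : AlgebraicClosure ℚ}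
    (hζ : IsPrimitiveRoot ζ p) (t : TameData P p) (he : t.e = p - 1) {τ : Dec P} (hτ : IsIne P τ)
    (hθ : IsPrimitiveRoot (t.th τ) t.e) {r : Dec P →* M2 k} (hlow : ∀ σ, r σ 1 0 = 0)
    (hlev : LevC P r) (hdet : ∀ σ, (r σ).det = algebraMap (ZMod p) k (omega ζ σ))
    (hflat : FlatI P fun σ => (r σ).mulVecLin) :
    ∃ (M N : M2 k), N * M = 1 ∧ (∀ σ, (N * r σ * M) 1 0 = 0) ∧
      (∀ σ, IsIne P σ → (N * r σ * M) 0 0 = algebraMap (ZMod p) k (omega ζ σ)) ∧
      ∀ σ, IsIne P σ → (N * r σ * M) 1 1 = 1 := by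
  classical
  have hinj := (algebraMap (ZMod p) k).injective
  have hw0 : ∀ σ : Dec P, algebraMap (ZMod p) k (omega ζ σ) ≠ 0 := fun σ e =>
    omega_ne_zero hζ σ (hinj (e.trans (map_zero _).symm))
  have h11 : ∀ σ, r σ 0 0 * r σ 1 1 = algebraMap (ZMod p) k (omega ζ σ) := fun σ => by
    rw [← hdet, Matrix.det_fin_two, hlow, mul_zero, sub_zero]
  obtain ⟨hval, hG⟩ := char_tame hP t he (hlev.comp fun A : M2 k => A 0 0)
    (by rw [map_one, Matrix.one_apply_eq]) (r00_mul hlow)
  set a : Dec P → ZMod p := fun σ => Function.invFun (algebraMap (ZMod p) k) (r σ 0 0) with hadef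
  have ha : ∀ σ, IsIne P σ → r σ 0 0 = algebraMap (ZMod p) k (a σ) := fun σ hσ => by
    obtain ⟨b, hb⟩ := hval σ hσ
    exact (Function.invFun_eq (f := algebraMap (ZMod p) k) ⟨b, hb.symm⟩).symm
  have haG : ∀ g ∈ t.G, a g = 1 := fun g hg => hinj (by rw [← ha g hg.1, hG g hg, map_one])
  have hline : FlatI P (lineAct a) :=
    hflat.restrict (LinearMap.pi ![Algebra.linearMap (ZMod p) k, 0] :
        ZMod p →ₗ[ZMod p] (Fin 2 → k))
      (fun x y e => hinj (by simpa using congrFun e 0)) fun σ hσ x => by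
        funext i
        fin_cases i <;>
          simp [lineAct, Matrix.mulVec, dotProduct, Fin.sum_univ_two, hlow σ, ha σ hσ]
  rcases flat_line_char hP t hζ he haG hline with hω | h1
  · refine ⟨1, 1, one_mul 1, fun σ => by rw [one_mul, mul_one]; exact hlow σ, fun σ hσ => ?_,
      fun σ hσ => ?_⟩
    · rw [one_mul, mul_one, ha σ hσ, hω σ hσ]
    · rw [one_mul, mul_one]
      refine mul_left_cancel₀ (hw0 σ) ?_
      rw [mul_one]
      conv_rhs => rw [← h11 σ, ha σ hσ, hω σ hσ]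
  have hr00 : ∀ σ, IsIne P σ → r σ 0 0 = 1 := fun σ hσ => by rw [ha σ hσ, h1 σ hσ, map_one]
  have hr11 : ∀ σ, IsIne P σ → r σ 1 1 = algebraMap (ZMod p) k (omega ζ σ) := fun σ hσ => by
    rw [← h11 σ, hr00 σ hσ, one_mul]
  let b := Module.finBasis (ZMod p) k
  have hsplit : ∀ σ, IsIne P σ → r σ 0 1 * (algebraMap (ZMod p) k (omega ζ τ) - 1) =
      r τ 0 1 * (algebraMap (ZMod p) k (omega ζ σ) - 1) := by
    intro σ hσ
    refine sub_eq_zero.1 (b.forall_coord_eq_zero_iff.1 fun i => ?_)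
    let act1 : Dec P → Module.End (ZMod p) (k × ZMod p) := fun σ =>
      (LinearMap.fst _ _ _ + (LinearMap.toSpanSingleton (ZMod p) k (r σ 0 1)) ∘ₗ
        LinearMap.snd _ _ _).prod (omega (p := p) ζ σ • LinearMap.snd _ _ _)
    have hs1 : FlatI P act1 :=
      hflat.restrict (LinearMap.pi ![LinearMap.fst _ _ _,
          Algebra.linearMap (ZMod p) k ∘ₗ LinearMap.snd _ _ _] :
          k × ZMod p →ₗ[ZMod p] (Fin 2 → k))
        (fun x y e => Prod.ext (by simpa using congrFun e 0) (hinj (by simpa using congrFun e 1)))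
        fun σ hσ x => by
          funext j
          fin_cases j <;>
            simp [act1, Matrix.mulVec, dotProduct, Fin.sum_univ_two, hlow σ, hr00 σ hσ, hr11 σ hσ,
              Algebra.smul_def, mul_comm]
    have hs2 : FlatI P (planeAct ζ fun σ => b.coord i (r σ 0 1)) :=
      hs1.quotient hP (LinearMap.pi ![b.coord i ∘ₗ LinearMap.fst _ _ _, LinearMap.snd _ _ _] :
          k × ZMod p →ₗ[ZMod p] Vec2 p)
        (fun q => ⟨(q 0 • b i, q 1), funext fun j => by fin_cases j <;> simp⟩) fun σ hσ x => by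
          rw [planeAct_apply]
          funext j
          fin_cases j <;> simp [act1, mul_comm]
    have h := ext_split hP hp3 t hζ he hτ hθ hs2 hσ
    have e1 : ∀ (z : ZMod p) (y : k),
        b.coord i (y * (algebraMap (ZMod p) k z - 1)) = b.coord i y * (z - 1) := fun z y => by
      rw [mul_comm, ← map_one (algebraMap (ZMod p) k), ← map_sub, ← Algebra.smul_def, map_smul,
        smul_eq_mul, mul_comm]
    rw [map_sub, e1, e1, h, sub_self]
  have hwτ : algebraMap (ZMod p) k (omega ζ τ) - 1 ≠ 0 := sub_ne_zero.2 fun e =>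
    t.omega_tau_ne_one hP hp3 hζ he hτ hθ (hinj (e.trans (map_one _).symm))
  set K := r τ 0 1 / (algebraMap (ZMod p) k (omega ζ τ) - 1) with hK
  have h01 : ∀ σ, IsIne P σ → r σ 0 1 = K * (algebraMap (ZMod p) k (omega ζ σ) - 1) :=
    fun σ hσ => by rw [hK, div_mul_eq_mul_div, eq_div_iff hwτ, hsplit σ hσ]
  set M : M2 k := !![K, 1; 1, 0] with hM
  set N : M2 k := !![0, 1; 1, -K] with hN
  have hNM : N * M = 1 := by
    ext i j; fin_cases i <;> fin_cases j <;> simp [hM, hN, Matrix.mul_apply, Fin.sum_univ_two]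
  have hI : ∀ σ, IsIne P σ → (N * r σ * M) 1 0 = 0 ∧
      (N * r σ * M) 0 0 = algebraMap (ZMod p) k (omega ζ σ) ∧ (N * r σ * M) 1 1 = 1 := by
    intro σ hσ
    simp only [hM, hN, Matrix.mul_apply, Fin.sum_univ_two, hlow σ, hr00 σ hσ, hr11 σ hσ, h01 σ hσ]
    refine ⟨?_, ?_, ?_⟩ <;> simp
    ring
  refine ⟨M, N, hNM, fun g => ?_, fun σ hσ => (hI σ hσ).2.1, fun σ hσ => (hI σ hσ).2.2⟩
  have hg : IsIne P (g⁻¹ * τ * g) := by simpa using hτ.conj g⁻¹
  have hMN : M * N = 1 := mul_eq_one_comm.1 hNM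
  have e : (N * r τ * M) * (N * r g * M) = (N * r g * M) * (N * r (g⁻¹ * τ * g) * M) := by
    have : r τ * r g = r g * r (g⁻¹ * τ * g) := by
      rw [← map_mul, ← map_mul]; congr 1; group
    generalize g⁻¹ * τ * g = σ' at this ⊢
    simp only [mul_assoc]
    rw [← mul_assoc M N, hMN, one_mul, ← mul_assoc M N, hMN, one_mul, ← mul_assoc (r τ), this,
      mul_assoc]
  have e1 := congrFun (congrFun e 1) 0
  rw [Matrix.mul_apply, Matrix.mul_apply, Fin.sum_univ_two, Fin.sum_univ_two, (hI τ hτ).1,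
    (hI τ hτ).2.2, (hI _ hg).2.1, (hI _ hg).1, omega_conj hζ, zero_mul, zero_add, one_mul,
    mul_zero, add_zero] at e1
  by_contra hne
  exact sub_ne_zero.1 hwτ ((mul_eq_left₀ hne).1 e1.symm)

end FLTAgent.TWPrimes.Local
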