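import Fermat.Agent.TWPrimes.Local.FlatChar

/-!
# A plane without stable line descends to the prime field

Wild inertia acts trivially, the image of inertia is cyclic with two conjugate eigenvalues
exchanged by Frobenius, and a suitable basis makes every matrix rational over the prime field.
-/

set_option autoImplicit false
set_option linter.style.haveILetI false
set_option linter.unusedSectionVars false

noncomputable section

open scoped Pointwise Matrix
open IsLocalRing

namespace FLTAgent.TWPrimes.Local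

open FLTAgent.FlatLocal (Dec LevC IsIne IsWild TameData Mat2 omega exists_frob exists_decomp
  isWild_one isWild_commutator)

local notation "M2" => Matrix (Fin 2) (Fin 2)

variable {P : ValuationSubring (AlgebraicClosure ℚ)} {p : ℕ} [Fact p.Prime] {k : Type} [Field k]
  [Algebra (ZMod p) k]

theorem eq_zero_of_two_vec {A : M2 k} {x y : Fin 2 → k} (hx : x ≠ 0) (hy : ∀ a : k, y ≠ a • x)
    (hAx : A *ᵥ x = 0) (hAy : A *ᵥ y = 0) : A = 0 := by
  have hli : LinearIndependent k ![x, y] := by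
    rw [linearIndependent_fin2]
    refine ⟨fun e => hy 0 (by simpa using e), fun a e => ?_⟩
    change a • y = x at e
    rcases eq_or_ne a 0 with rfl | ha
    · exact hx (by simpa using e.symm)
    · exact hy a⁻¹ (by conv_rhs => rw [← e, smul_smul, inv_mul_cancel₀ ha, one_smul])
  have h1 : A.mulVecLin = 0 := LinearMap.ext_on_range
    (hli.span_eq_top_of_card_eq_finrank' (by simp)) fun i => by
      rw [LinearMap.zero_apply, Matrix.mulVecLin_apply]
      fin_cases i
      · exact hAx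
      · exact hAy
  exact Matrix.toLin'.injective (by rw [map_zero, Matrix.toLin'_apply', h1])

theorem cayley_two (A : M2 k) : A * A = A.trace • A - A.det • 1 := by
  ext i j
  fin_cases i <;> fin_cases j <;>
    simp [Matrix.mul_apply, Fin.sum_univ_two, Matrix.trace_fin_two, Matrix.det_fin_two,
      Matrix.one_apply] <;> ring

theorem exists_eigvec {A : M2 k} {a b : k} (htr : A.trace = a + b) (hdet : A.det = a * b) :
    ∃ v : Fin 2 → k, v ≠ 0 ∧ A *ᵥ v = a • v := by
  have h0 : (A - a • 1).det = 0 := by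
    rw [Matrix.trace_fin_two] at htr
    rw [Matrix.det_fin_two] at hdet ⊢
    simp
    linear_combination hdet - a * htr
  obtain ⟨v, hv, e⟩ := Matrix.exists_mulVec_eq_zero_iff.2 h0
  rw [Matrix.sub_mulVec, Matrix.smul_mulVec, Matrix.one_mulVec, sub_eq_zero] at e
  exact ⟨v, hv, e⟩

theorem rep_conj (r : Dec P →* M2 k) (g σ : Dec P) :
    r σ * r g = r g * r (g⁻¹ * σ * g) := by
  rw [← map_mul, ← map_mul]
  congr 1
  group

/-- The decomposition group has no stable line. -/
def NoLine (r : Dec P →* M2 k) : Prop :=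
  ∀ v : Fin 2 → k, v ≠ 0 → ∃ g, ∀ a : k, r g *ᵥ v ≠ a • v

variable [Finite k] {r : Dec P →* M2 k}

/-- Without a stable line wild inertia acts trivially. -/
theorem wild_trivial' (hP : P.LiesOverPrime p) (hlev : LevC P r) (hnl : NoLine r) {w₀ : Dec P}
    (hw₀ : IsWild P w₀) : r w₀ = 1 := by
  classical
  haveI := charP_local p k
  let Wd : Subgroup (Dec P) :=
    { carrier := {σ | IsWild P σ}
      one_mem' := isWild_one
      mul_mem' := fun ha hb => ha.mul hb
      inv_mem' := fun ha => ha.inv }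
  let H : Subgroup (M2 k)ˣ := Wd.map r.toHomUnits
  letI : MulAction H (Fin 2 → k) :=
    { smul := fun h v => ((h : (M2 k)ˣ) : M2 k) *ᵥ v
      one_smul := fun v => Matrix.one_mulVec v
      mul_smul := fun h h' v => (Matrix.mulVec_mulVec v _ _).symm }
  have hpg : IsPGroup p H := by
    rintro ⟨_, σ, hσ, rfl⟩
    obtain ⟨F, hF, hl⟩ := hlev
    haveI := hF
    obtain ⟨n, hn⟩ := IsWild.exists_pow_mem hP (show IsWild P σ from hσ) F
    refine ⟨n, Subtype.ext (Units.ext ?_)⟩
    have h1 := hl 1 _ hn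
    rw [one_mul, map_one] at h1
    simp only [SubmonoidClass.coe_pow, OneMemClass.coe_one, Units.val_pow_eq_pow_val, Units.val_one]
    rw [show ((r.toHomUnits σ : (M2 k)ˣ) : M2 k) = r σ from rfl, ← map_pow]
    exact h1
  have hdvd : p ∣ Nat.card (Fin 2 → k) := by
    letI := Fintype.ofFinite k
    obtain ⟨n, -, hn⟩ := FiniteField.card k p
    rw [Nat.card_eq_fintype_card, Fintype.card_fun, Fintype.card_fin, hn, ← pow_mul]
    exact dvd_pow_self p (by simp)
  obtain ⟨v, hv, hv0⟩ := hpg.exists_fixed_point_of_prime_dvd_card_of_fixed_point (Fin 2 → k) hdvd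
    (a := 0) (fun h => Matrix.mulVec_zero _)
  have hfix : ∀ w, IsWild P w → r w *ᵥ v = v := fun w hw =>
    hv ⟨r.toHomUnits w, w, hw, rfl⟩
  obtain ⟨g, hg⟩ := hnl v hv0.symm
  refine sub_eq_zero.1 (eq_zero_of_two_vec hv0.symm hg ?_ ?_)
  · rw [Matrix.sub_mulVec, Matrix.one_mulVec, hfix w₀ hw₀, sub_self]
  · rw [Matrix.sub_mulVec, Matrix.one_mulVec, Matrix.mulVec_mulVec, rep_conj r g w₀,
      ← Matrix.mulVec_mulVec, hfix _ (by simpa using isWild_conj hw₀ g⁻¹), sub_self]

/-- Without a stable line the image of inertia is abelian. -/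
theorem ine_comm (hP : P.LiesOverPrime p) (hlev : LevC P r) (hnl : NoLine r) {a b : Dec P}
    (ha : IsIne P a) (hb : IsIne P b) : r a * r b = r b * r a := by
  have h := wild_trivial' hP hlev hnl (isWild_commutator ha hb)
  rw [map_mul, map_mul, map_mul] at h
  calc r a * r b = r a * r b * (r a⁻¹ * (r b⁻¹ * r b) * r a) := by
        rw [r_inv_mul, mul_one, r_inv_mul, mul_one]
    _ = (r a * r b * r a⁻¹ * r b⁻¹) * (r b * r a) := by simp only [mul_assoc]
    _ = r b * r a := by rw [h, one_mul]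

/-- An inertia element with a double eigenvalue is a scalar. -/
theorem scalar_of_double (hP : P.LiesOverPrime p) (hlev : LevC P r) (hnl : NoLine r) {σ : Dec P}
    (hσ : IsIne P σ) {a : k} (htr : (r σ).trace = a + a) (hdet : (r σ).det = a * a) :
    r σ = a • 1 := by
  obtain ⟨v, hv0, hv⟩ := exists_eigvec htr hdet
  set N := r σ - a • (1 : M2 k) with hNdef
  have hNv : N *ᵥ v = 0 := by
    rw [hNdef, Matrix.sub_mulVec, Matrix.smul_mulVec, Matrix.one_mulVec, hv, sub_self]
  have hNN : N * N = 0 := by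
    rw [hNdef, sub_mul, mul_sub, mul_sub, cayley_two, htr, hdet]
    simp only [smul_mul_assoc, mul_smul_comm, one_mul, mul_one]
    module
  by_contra hne
  have hN0 : N ≠ 0 := sub_ne_zero.2 hne
  obtain ⟨g, hg⟩ := hnl v hv0
  refine hN0 (eq_zero_of_two_vec hv0 hg hNv ?_)
  set σ' := g⁻¹ * σ * g
  have hσ' : IsIne P σ' := by simpa [σ'] using hσ.conj g⁻¹
  set N' := r σ' - a • (1 : M2 k) with hN'def
  have hconj : N * r g = r g * N' := by
    rw [hNdef, hN'def, sub_mul, mul_sub, rep_conj r g σ, smul_mul_assoc, one_mul, mul_smul_comm,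
      mul_one]
  have hcomm : N * N' = N' * N := by
    rw [hNdef, hN'def]
    simp only [sub_mul, mul_sub, smul_mul_assoc, mul_smul_comm, one_mul, mul_one,
      ine_comm hP hlev hnl hσ hσ']
    module
  obtain ⟨c, hc⟩ : ∃ c : k, N' *ᵥ v = c • v := by
    by_contra hc
    push Not at hc
    exact hN0 (eq_zero_of_two_vec hv0 hc hNv (by
      rw [Matrix.mulVec_mulVec, hcomm, ← Matrix.mulVec_mulVec, hNv, Matrix.mulVec_zero]))
  have hN'2 : N' * N' = 0 := by
    have e : N' = r g⁻¹ * (N * r g) := by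
      rw [hconj, ← mul_assoc, r_inv_mul, one_mul]
    calc N' * N' = r g⁻¹ * (N * r g) * N' := by rw [← e]
      _ = r g⁻¹ * (N * (r g * N')) := by simp only [mul_assoc]
      _ = 0 := by rw [← hconj, ← mul_assoc, ← mul_assoc, mul_assoc (r g⁻¹) N N, hNN, mul_zero,
          zero_mul]
  have hc0 : c = 0 := by
    have h1 := congrArg (fun A : M2 k => A *ᵥ v) hN'2
    simp only [Matrix.zero_mulVec, ← Matrix.mulVec_mulVec, hc, Matrix.mulVec_smul, smul_smul] at h1
    exact mul_self_eq_zero.1 ((smul_eq_zero.1 h1).resolve_right hv0)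
  rw [Matrix.mulVec_mulVec, hconj, ← Matrix.mulVec_mulVec, hc, hc0, zero_smul, Matrix.mulVec_zero]

/-- Inertia has exponent prime to `p`. -/
theorem ine_exponent (hP : P.LiesOverPrime p) (hlev : LevC P r) (hnl : NoLine r)
    (hsplit : ∀ σ, ∃ a b : k, (r σ).trace = a + b ∧ (r σ).det = a * b) {σ : Dec P}
    (hσ : IsIne P σ) : r σ ^ (Nat.card k - 1) = 1 := by
  obtain ⟨a, b, htr, hdet⟩ := hsplit σ
  have hne : a * b ≠ 0 := by
    rw [← hdet]
    intro e
    have h := congrArg Matrix.det (r_mul_inv r σ)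
    rw [Matrix.det_mul, e, zero_mul, Matrix.det_one] at h
    exact zero_ne_one h
  have ha := pow_card_sub_one (k := k) (left_ne_zero_of_mul hne)
  have hb := pow_card_sub_one (k := k) (right_ne_zero_of_mul hne)
  rcases eq_or_ne a b with rfl | hab
  · rw [scalar_of_double hP hlev hnl hσ htr hdet, smul_pow, one_pow, ha, one_smul]
  · have key : ∀ n : ℕ, (a - b) • r σ ^ n =
        (a ^ n - b ^ n) • r σ - (a ^ n * b - b ^ n * a) • (1 : M2 k) := by
      intro n
      induction n with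
      | zero =>
        simp only [pow_zero, sub_self, zero_smul, one_mul, zero_sub, ← neg_smul, neg_sub]
      | succ n ih =>
        rw [pow_succ, ← smul_mul_assoc, ih, sub_mul, smul_mul_assoc, smul_mul_assoc, one_mul,
          cayley_two, htr, hdet, smul_sub, smul_smul, smul_smul]
        rw [pow_succ, pow_succ]
        module
    have h := key (Nat.card k - 1)
    rw [ha, hb, sub_self, zero_smul, one_mul, one_mul, zero_sub, ← neg_smul, neg_sub] at h
    exact smul_right_injective (M2 k) (sub_ne_zero.2 hab) h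

/-- **Descent to the prime field.** -/
theorem exists_descent (hP : P.LiesOverPrime p) (hp3 : 3 ≤ p) {ζ : AlgebraicClosure ℚ}
    (hlev : LevC P r) (hnl : NoLine r)
    (hsplit : ∀ σ, ∃ a b : k, (r σ).trace = a + b ∧ (r σ).det = a * b)
    (hdet : ∀ σ, (r σ).det = algebraMap (ZMod p) k (omega ζ σ)) :
    ∃ M N : M2 k, N * M = 1 ∧
      ∀ σ, ∃ A : Mat2 p, N * r σ * M = A.map (algebraMap (ZMod p) k) := by
  classical
  haveI := charP_local p k
  have hinj := (algebraMap (ZMod p) k).injective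
  obtain ⟨hq, hdvd, hndvd⟩ := tame_index (p := p) (k := k)
  obtain ⟨t, ht⟩ := TameData.exists_data P (p := p) _ hq hdvd hndvd
  obtain ⟨τ, hτ, hθ⟩ := t.exists_tau hP
  obtain ⟨φ, hφ⟩ := exists_frob hP
  have hG : ∀ g ∈ t.G, r g = 1 := by
    intro g hg
    have h := t.hom_trivial hP (M := (M2 k)ˣ) r.toHomUnits
      (by obtain ⟨F, hF, hl⟩ := hlev; exact ⟨F, hF, fun a b hb => Units.ext (hl a b hb)⟩)
      (fun a b _ _ => map_mul _ a b)
      (fun σ hσ => Units.ext (wild_trivial' hP hlev hnl hσ))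
      (fun σ hσ => Units.ext (by
        rw [Units.val_pow_eq_pow_val, ht]
        exact ine_exponent hP hlev hnl hsplit hσ)) hg
    exact congrArg Units.val h
  have hI : ∀ σ, IsIne P σ → ∃ j : ℕ, r σ = r τ ^ j := fun σ hσ => by
    obtain ⟨j, g, hg, rfl⟩ := t.ine_decomp hP hτ hθ hσ
    exact ⟨j, by rw [map_mul, hG g hg, mul_one, map_pow]⟩
  have hgen : ∀ σ, ∃ i j : ℕ, r σ = r φ ^ i * r τ ^ j := by
    intro σ
    obtain ⟨F, hF, hl⟩ := hlev
    haveI := hF
    obtain ⟨i, ι, s, hι, hs, rfl⟩ := exists_decomp hP hφ F σ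
    obtain ⟨j, hj⟩ := hI ι hι
    exact ⟨i, j, by rw [hl _ _ hs, map_mul, map_pow, hj]⟩
  have hpowv : ∀ {A : M2 k} {v : Fin 2 → k} {a : k}, A *ᵥ v = a • v → ∀ n : ℕ,
      (A ^ n) *ᵥ v = a ^ n • v := by
    intro A v a h n
    induction n with
    | zero => simp
    | succ n ih =>
      rw [pow_succ, ← Matrix.mulVec_mulVec, h, Matrix.mulVec_smul, ih, smul_smul, pow_succ']
  -- a common eigenvector gives a stable line
  have hstable : ∀ (v : Fin 2 → k) (x y : k), v ≠ 0 → r φ *ᵥ v = x • v → r τ *ᵥ v = y • v →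
      False := by
    intro v x y hv hx hy
    obtain ⟨g, hg⟩ := hnl v hv
    obtain ⟨i, j, e⟩ := hgen g
    exact hg (y ^ j * x ^ i) (by
      rw [e, ← Matrix.mulVec_mulVec, hpowv hy, Matrix.mulVec_smul, hpowv hx, smul_smul])
  obtain ⟨θ₁, θ₂, htr, hdt⟩ := hsplit τ
  have hθne : θ₁ ≠ θ₂ := by
    rintro rfl
    have hs := scalar_of_double hP hlev hnl hτ htr hdt
    obtain ⟨a, b, htr', hdt'⟩ := hsplit φ
    obtain ⟨v, hv, he⟩ := exists_eigvec htr' hdt'
    exact hstable v a θ₁ hv he (by rw [hs, Matrix.smul_mulVec, Matrix.one_mulVec])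
  obtain ⟨v₁, hv₁, he₁⟩ := exists_eigvec htr hdt
  obtain ⟨v₂, hv₂, he₂⟩ := exists_eigvec (a := θ₂) (b := θ₁)
    (by rw [htr, add_comm]) (by rw [hdt, mul_comm])
  have hind : ∀ c : k, v₂ ≠ c • v₁ := by
    intro c e
    have h1 := he₂
    rw [e, Matrix.mulVec_smul, he₁, smul_comm c θ₁] at h1
    have h2 : c • v₁ ≠ 0 := e ▸ hv₂
    exact hθne (smul_left_injective k h2 h1)
  have hexp : ∀ u : Fin 2 → k, ∃ x y : k, u = x • v₁ + y • v₂ := by
    intro u
    have hli : LinearIndependent k ![v₁, v₂] := by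
      rw [linearIndependent_fin2]
      refine ⟨hv₂, fun a e => ?_⟩
      change a • v₂ = v₁ at e
      rcases eq_or_ne a 0 with rfl | ha
      · exact hv₁ (by simpa using e.symm)
      · exact hind a⁻¹ (by rw [← e, smul_smul, inv_mul_cancel₀ ha, one_smul])
    have h := (hli.span_eq_top_of_card_eq_finrank' (by simp)).ge (Submodule.mem_top (x := u))
    rw [Matrix.range_cons_cons_empty, Submodule.mem_span_pair] at h
    obtain ⟨x, y, e⟩ := h
    exact ⟨x, y, e.symm⟩
  have hcoord : ∀ {x y : k}, x • v₁ + y • v₂ = 0 → x = 0 ∧ y = 0 := by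
    intro x y e
    by_cases hy : y = 0
    · rw [hy, zero_smul, add_zero, smul_eq_zero] at e
      exact ⟨e.resolve_right hv₁, hy⟩
    · refine absurd ?_ (hind (-(x / y)))
      refine smul_right_injective (Fin 2 → k) hy ?_
      show y • v₂ = y • (-(x / y)) • v₁
      rw [smul_smul, mul_neg, mul_div_cancel₀ _ hy, neg_smul]
      exact eq_neg_of_add_eq_zero_right e
  have hconj : r φ * r τ = r τ ^ p * r φ := by
    obtain ⟨g, hg, e⟩ := t.frob_conj_decomp hP hφ hτ
    have h1 := congrArg r (show φ * τ = τ ^ p * g * φ by rw [← e]; group)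
    rwa [map_mul, map_mul, map_mul, map_pow, hG g hg, mul_one] at h1
  have himage : ∀ {v : Fin 2 → k} {θ : k}, r τ *ᵥ v = θ • v → ∀ {x y : k},
      r φ *ᵥ v = x • v₁ + y • v₂ → x * (θ₁ ^ p - θ) = 0 ∧ y * (θ₂ ^ p - θ) = 0 := by
    intro v θ hv x y e
    have h1 := congrArg (fun A : M2 k => A *ᵥ v) hconj
    simp only [← Matrix.mulVec_mulVec, hv, Matrix.mulVec_smul, e, Matrix.mulVec_add, hpowv he₁,
      hpowv he₂, smul_add, smul_smul] at h1
    refine hcoord ?_
    rw [← sub_eq_zero.2 h1.symm]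
    module
  obtain ⟨x, y, e₁⟩ := hexp (r φ *ᵥ v₁)
  obtain ⟨x', y', e₂⟩ := hexp (r φ *ᵥ v₂)
  obtain ⟨hx, hy⟩ := himage he₁ e₁
  obtain ⟨hx', hy'⟩ := himage he₂ e₂
  have hy0 : y ≠ 0 := fun h =>
    hstable v₁ x θ₁ hv₁ (by rw [e₁, h, zero_smul, add_zero]) he₁
  have hx'0 : x' ≠ 0 := fun h =>
    hstable v₂ y' θ₂ hv₂ (by rw [e₂, h, zero_smul, zero_add]) he₂
  have h21 : θ₂ ^ p = θ₁ := sub_eq_zero.1 ((mul_eq_zero.1 hy).resolve_left hy0)
  have h12 : θ₁ ^ p = θ₂ := sub_eq_zero.1 ((mul_eq_zero.1 hx').resolve_left hx'0)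
  have hx0 : x = 0 := (mul_eq_zero.1 hx).resolve_right (by rw [h12]; exact sub_ne_zero.2 hθne.symm)
  have hy'0 : y' = 0 := (mul_eq_zero.1 hy').resolve_right (by rw [h21]; exact sub_ne_zero.2 hθne)
  set w : Fin 2 → k := y • v₂ with hw
  have hφv : r φ *ᵥ v₁ = w := by rw [e₁, hx0, zero_smul, zero_add]
  have hφw : r φ *ᵥ w = (y * x') • v₁ := by
    rw [hw, Matrix.mulVec_smul, e₂, hy'0, zero_smul, add_zero, smul_smul]
  have hτw : r τ *ᵥ w = θ₂ • w := by rw [hw, Matrix.mulVec_smul, he₂, smul_comm]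
  set Mv : M2 k := !![v₁ 0, w 0; v₁ 1, w 1] with hMv
  have hMdet : Mv.det ≠ 0 := by
    intro h0
    obtain ⟨z, hz, e⟩ := Matrix.exists_mulVec_eq_zero_iff.2 h0
    have h1 : z 0 • v₁ + (z 1 * y) • v₂ = 0 := by
      funext i
      have := congrFun e i
      fin_cases i <;>
        · simp [hMv, hw, Matrix.mulVec, dotProduct, Fin.sum_univ_two] at this ⊢
          linear_combination this
    obtain ⟨hz0, hz1⟩ := hcoord h1
    exact hz (funext fun i => by
      fin_cases i
      exacts [hz0, (mul_eq_zero.1 hz1).resolve_right hy0])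
  have hJM : r τ * Mv = Mv * !![θ₁, 0; 0, θ₂] := by
    ext i j
    fin_cases j
    · have e := congrFun he₁ i
      fin_cases i <;>
        · simp [hMv, Matrix.mul_apply, Matrix.mulVec, dotProduct, Fin.sum_univ_two] at e ⊢
          linear_combination e
    · have e := congrFun hτw i
      fin_cases i <;>
        · simp [hMv, Matrix.mul_apply, Matrix.mulVec, dotProduct, Fin.sum_univ_two] at e ⊢
          linear_combination e
  have hΦM : r φ * Mv = Mv * !![0, y * x'; 1, 0] := by
    ext i j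
    fin_cases j
    · have e := congrFun hφv i
      fin_cases i <;>
        · simp [hMv, Matrix.mul_apply, Matrix.mulVec, dotProduct, Fin.sum_univ_two] at e ⊢
          linear_combination e
    · have e := congrFun hφw i
      fin_cases i <;>
        · simp [hMv, Matrix.mul_apply, Matrix.mulVec, dotProduct, Fin.sum_univ_two] at e ⊢
          linear_combination e
  -- the scalars
  set β : ZMod p := -omega ζ φ with hβ
  have hbβ : y * x' = algebraMap (ZMod p) k β := by
    have h1 := congrArg Matrix.det hΦM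
    rw [Matrix.det_mul, Matrix.det_mul, hdet, mul_comm Mv.det] at h1
    have h2 := mul_right_cancel₀ hMdet h1
    rw [hβ, map_neg, h2]
    simp [Matrix.det_fin_two]
  have hβ0 : β ≠ 0 := fun e => by
    rw [e, map_zero] at hbβ
    exact (mul_ne_zero hy0 hx'0) hbβ
  have hδp : (θ₁ - θ₂) ^ p = -(θ₁ - θ₂) := by rw [sub_pow_char, h12, h21, neg_sub]
  have hodd : Odd p := (Fact.out : p.Prime).odd_of_ne_two (by omega)
  obtain ⟨T, hT⟩ := exists_algebraMap_of_pow (p := p) (z := θ₁ + θ₂)
    (by rw [add_pow_char, h12, h21, add_comm])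
  obtain ⟨d, hd⟩ := exists_algebraMap_of_pow (p := p) (z := (θ₁ - θ₂) * (θ₁ - θ₂))
    (by rw [mul_pow, hδp, neg_mul_neg])
  have hd0 : d ≠ 0 := fun e => by
    rw [e, map_zero, eq_comm, mul_self_eq_zero, sub_eq_zero] at hd
    exact hθne hd
  obtain ⟨a, s, has⟩ : ∃ a s : ZMod p, a * a - s * s * d = β⁻¹ := by
    obtain ⟨a, s, h⟩ := FiniteField.exists_root_sum_quadratic
      (f := (Polynomial.X ^ 2 : Polynomial (ZMod p)))
      (g := Polynomial.C (-d) * Polynomial.X ^ 2 + Polynomial.C (-β⁻¹)) (Polynomial.degree_X_pow 2)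
      (by
        rw [Polynomial.degree_add_C (by
          rw [Polynomial.degree_C_mul_X_pow 2 (neg_ne_zero.2 hd0)]; decide),
          Polynomial.degree_C_mul_X_pow 2 (neg_ne_zero.2 hd0)]
        rfl)
      (by rw [ZMod.card]; exact Nat.odd_iff.1 hodd)
    refine ⟨a, s, ?_⟩
    simp at h
    linear_combination h
  set δ := θ₁ - θ₂ with hδ
  set A' := algebraMap (ZMod p) k a with hA'
  set S' := algebraMap (ZMod p) k s with hS'
  set B' := algebraMap (ZMod p) k β with hB'
  set γ := A' + S' * δ with hγ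
  have hkey : γ * (A' - S' * δ) * B' = 1 := by
    have h1 := congrArg (algebraMap (ZMod p) k) has
    rw [map_sub, map_mul, map_mul, map_mul, hd, map_inv₀] at h1
    have h2 : algebraMap (ZMod p) k β ≠ 0 := fun e => hβ0 (hinj (e.trans (map_zero _).symm))
    have h3 := inv_mul_cancel₀ h2
    rw [hγ]
    linear_combination B' * h1 + h3
  have hγ0 : γ ≠ 0 := fun e => by rw [e, zero_mul, zero_mul] at hkey; exact zero_ne_one hkey
  have hhalf : (2 : k) ≠ 0 := two_ne_zero_coeff (p := p) (by omega) k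
  obtain ⟨hf, hhf⟩ : ∃ hf : ZMod p, hf * 2 = 1 :=
    ⟨(2 : ZMod p)⁻¹, inv_mul_cancel₀ fun e => hhalf (by
      rw [← map_ofNat (algebraMap (ZMod p) k) 2, e, map_zero])⟩
  have hh : algebraMap (ZMod p) k hf * 2 = 1 := by
    rw [← map_ofNat (algebraMap (ZMod p) k) 2, ← map_mul, hhf, map_one]
  set X : M2 k := !![1, δ; γ, -(γ * δ)] with hX
  have hXdet : X.det ≠ 0 := by
    rw [Matrix.det_fin_two]
    intro e
    simp [hX] at e
    have : (2 : k) * (γ * δ) = 0 := by linear_combination -e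
    rcases mul_eq_zero.1 this with h | h
    · exact hhalf h
    · exact mul_ne_zero hγ0 (sub_ne_zero.2 hθne) h
  have hMX : IsUnit (Mv * X).det := by
    rw [Matrix.det_mul]; exact isUnit_iff_ne_zero.2 (mul_ne_zero hMdet hXdet)
  let J0 : Mat2 p := !![T * hf, d * hf; hf, T * hf]
  let Φ0 : Mat2 p := !![β * a, -(β * s * d); β * s, -(β * a)]
  have hJ0 : (!![θ₁, 0; 0, θ₂] : M2 k) * X = X * J0.map (algebraMap (ZMod p) k) := by
    ext i j
    fin_cases i <;> fin_cases j <;>
      simp [hX, J0, Matrix.mul_apply, Fin.sum_univ_two, hT, hd, map_mul, hδ]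
    · linear_combination (-θ₁) * hh
    · linear_combination (-(θ₁ * (θ₁ - θ₂))) * hh
    · linear_combination (-(θ₂ * γ)) * hh
    · linear_combination (θ₂ * γ * (θ₁ - θ₂)) * hh
  have hΦ0 : (!![0, y * x'; 1, 0] : M2 k) * X = X * Φ0.map (algebraMap (ZMod p) k) := by
    ext i j
    fin_cases i <;> fin_cases j <;>
      simp [hX, Φ0, Matrix.mul_apply, Fin.sum_univ_two, hbβ, hd, map_mul, map_neg]
    · rw [hγ]; ring
    · rw [hγ]; ring
    · linear_combination -hkey
    · linear_combination -δ * hkey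
  set M := Mv * X with hM
  have hNM : M⁻¹ * M = 1 := Matrix.nonsing_inv_mul M hMX
  have hMN : M * M⁻¹ = 1 := mul_eq_one_comm.1 hNM
  have hone : M⁻¹ * r φ * M = Φ0.map (algebraMap (ZMod p) k) ∧
      M⁻¹ * r τ * M = J0.map (algebraMap (ZMod p) k) := by
    constructor
    · rw [mul_assoc, show r φ * M = M * Φ0.map (algebraMap (ZMod p) k) by
        rw [hM, ← mul_assoc, hΦM, mul_assoc, hΦ0, ← mul_assoc], ← mul_assoc, hNM, one_mul]
    · rw [mul_assoc, show r τ * M = M * J0.map (algebraMap (ZMod p) k) by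
        rw [hM, ← mul_assoc, hJM, mul_assoc, hJ0, ← mul_assoc], ← mul_assoc, hNM, one_mul]
  refine ⟨M, M⁻¹, hNM, fun σ => ?_⟩
  obtain ⟨i, j, e⟩ := hgen σ
  have hpowc : ∀ (B : M2 k) (n : ℕ), M⁻¹ * B ^ n * M = (M⁻¹ * B * M) ^ n := by
    intro B n
    induction n with
    | zero => rw [pow_zero, pow_zero, mul_one, hNM]
    | succ n ih =>
      rw [pow_succ, pow_succ, ← ih]
      simp only [mul_assoc]
      rw [← mul_assoc M M⁻¹, hMN, one_mul]
  refine ⟨Φ0 ^ i * J0 ^ j, ?_⟩
  rw [Matrix.map_mul, Matrix.map_pow, Matrix.map_pow, e, ← hone.1, ← hone.2, ← hpowc, ← hpowc]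
  simp only [mul_assoc]
  rw [← mul_assoc M M⁻¹, hMN, one_mul]

end FLTAgent.TWPrimes.Local
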