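import Mathlib

/-!
# Vectors whose coordinatewise `p`-th power is given by a matrix

Over an algebraically closed field of characteristic `p` such vectors form a space over the prime
field of dimension at most the number of coordinates.
-/

set_option autoImplicit false

noncomputable section

open scoped Matrix

namespace FLTAgent.TWPrimes.Local

variable {p : ℕ} [Fact p.Prime] {F : Type} [Field F] [IsAlgClosed F] [Algebra (ZMod p) F]
  {n : ℕ} (M : Matrix (Fin n) (Fin n) F)

theorem frob_fixed_independent {ι : Type} (v : ι → Fin n → F)
    (hv : ∀ i j, v i j ^ p = (M *ᵥ v i) j) (hli : LinearIndependent (ZMod p) v)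
    (hfix : ∀ z : F, z ^ p = z → ∃ a : ZMod p, algebraMap (ZMod p) F a = z) :
    LinearIndependent F v := by
  classical
  haveI : CharP F p := charP_of_injective_algebraMap (algebraMap (ZMod p) F).injective p
  rw [linearIndependent_iff']
  intro s
  induction s using Finset.induction with
  | empty => simp
  | insert j s hj ih =>
    intro a ha i hi
    by_cases haj : a j = 0
    · rw [Finset.sum_insert hj, haj, zero_smul, zero_add] at ha
      rcases Finset.mem_insert.1 hi with rfl | hi
      · exact haj
      · exact ih a ha i hi
    exfalso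
    set b : ι → F := fun i => a i / a j with hbdef
    have hb : ∑ i ∈ insert j s, b i • v i = 0 := by
      have h := congrArg ((a j)⁻¹ • ·) ha
      simp only [Finset.smul_sum, smul_smul, smul_zero] at h
      rw [← h]
      exact Finset.sum_congr rfl fun i _ => by simp only [hbdef, div_eq_mul_inv, mul_comm]
    have hbj : b j = 1 := div_self haj
    choose r hr using fun i => IsAlgClosed.exists_pow_nat_eq (b i) (Fact.out : p.Prime).pos
    have hrj : r j = 1 := by
      refine frobenius_inj F p ?_
      simp only [frobenius_def, hr, hbj, one_pow]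
    have hr0 : ∑ i ∈ insert j s, r i • v i = 0 := by
      funext l
      refine frobenius_inj F p ?_
      rw [frobenius_def, frobenius_def, Pi.zero_apply, zero_pow (Fact.out : p.Prime).ne_zero,
        Finset.sum_apply, sum_pow_char]
      have h : (M *ᵥ ∑ i ∈ insert j s, b i • v i) l = 0 := by
        rw [hb, Matrix.mulVec_zero, Pi.zero_apply]
      rw [← h, Matrix.mulVec_sum, Finset.sum_apply]
      refine Finset.sum_congr rfl fun i _ => ?_
      rw [Pi.smul_apply, smul_eq_mul, mul_pow, hr, hv, Matrix.mulVec_smul, Pi.smul_apply,
        smul_eq_mul]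
    have hd : ∑ i ∈ s, (r i - b i) • v i = 0 := by
      rw [Finset.sum_insert hj] at hb hr0
      rw [hrj] at hr0
      rw [hbj] at hb
      simp only [sub_smul, Finset.sum_sub_distrib]
      rw [← add_sub_add_left_eq_sub _ _ ((1 : F) • v j), hr0, hb, sub_zero]
    have hrb : ∀ i ∈ insert j s, b i ^ p = b i := fun i hi => by
      rcases Finset.mem_insert.1 hi with rfl | hi
      · rw [hbj, one_pow]
      · have h := hr i
        rw [sub_eq_zero.1 (ih (fun i => r i - b i) hd i hi)] at h
        exact h
    choose! c hc using fun i (hi : i ∈ insert j s) => hfix (b i) (hrb i hi)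
    have hsum : ∑ i ∈ insert j s, c i • v i = 0 := by
      rw [← hb]
      exact Finset.sum_congr rfl fun i hi => by
        rw [← hc i hi, algebraMap_smul]
    have hcj := linearIndependent_iff'.1 hli _ c hsum j (Finset.mem_insert_self j s)
    have h1 := hc j (Finset.mem_insert_self j s)
    rw [hcj, map_zero, hbj] at h1
    exact zero_ne_one h1

theorem frob_fixed_bound (S : Submodule (ZMod p) (Fin n → F))
    (hS : ∀ x ∈ S, ∀ j, x j ^ p = (M *ᵥ x) j)
    (hfix : ∀ z : F, z ^ p = z → ∃ a : ZMod p, algebraMap (ZMod p) F a = z) :
    FiniteDimensional (ZMod p) S ∧ Module.finrank (ZMod p) S ≤ n := by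
  have key : ∀ s : Finset S, LinearIndepOn (ZMod p) id (s : Set S) → s.card ≤ n := by
    intro s hs
    have h1 : LinearIndependent (ZMod p) fun i : s => ((i : S) : Fin n → F) :=
      LinearIndependent.map' hs S.subtype (Submodule.ker_subtype S)
    have h2 := (frob_fixed_independent M (ι := s) (fun i => ((i : S) : Fin n → F))
      (fun i j => hS _ (Subtype.prop _) j) h1 hfix).fintype_card_le_finrank
    rwa [Fintype.card_coe, Module.finrank_fintype_fun_eq_card, Fintype.card_fin] at h2
  have hr : Module.rank (ZMod p) S ≤ n := rank_le key
  exact ⟨Module.rank_lt_aleph0_iff.1 (hr.trans_lt Cardinal.natCast_lt_aleph0),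
    Module.finrank_le_of_rank_le hr⟩

end FLTAgent.TWPrimes.Local
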